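import Fermat.Agent.FunctionFieldRank.Legendre
import Mathlib.FieldTheory.Finite.Basic
import Mathlib.GroupTheory.Perm.Cycle.Basic

/-!
# Descent of the points to the prime field

The coefficient Frobenius permutes the points of the roots of unity as `i ↦ p i`. The sums over
its orbits have coordinates in `F_p(u)`; their classes are the indicators of the orbits, and an
orbit has at most `2 f` members.
-/

set_option autoImplicit false
set_option linter.unusedSectionVars false
set_option linter.style.haveILetI false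

noncomputable section

open WeierstrassCurve Polynomial
open FA.CM.Seven (twoCurve)
open scoped Classical nonZeroDivisors

namespace FA.FunctionFieldRank

variable {K L : Type*} [Field K] [Field L]

theorem map_ulmerCurve (g : K →+* L) (t : K) : (ulmerCurve t).map g = ulmerCurve (g t) := by
  simp [ulmerCurve, WeierstrassCurve.map, map_ofNat]

/-- A map of fields maps the points. -/
def pointMap (g : K →+* L) {W : WeierstrassCurve K} {W' : WeierstrassCurve L} (h : W.map g = W') :
    W.toAffine.Point →+ W'.toAffine.Point where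
  toFun
    | .zero => 0
    | .some x y hxy => .some (g x) (g y) (h ▸ (W.toAffine.map_nonsingular g.injective x y).2 hxy)
  map_zero' := rfl
  map_add' := by
    subst h
    rintro (_ | ⟨x₁, y₁, h₁⟩) (_ | ⟨x₂, y₂, h₂⟩)
    any_goals rfl
    by_cases hxy : x₁ = x₂ ∧ y₁ = W.toAffine.negY x₂ y₂
    · rw [Affine.Point.add_of_Y_eq hxy.1 hxy.2,
        Affine.Point.add_of_Y_eq (congr_arg g hxy.1) (by rw [hxy.2, Affine.map_negY])]
    · have hxy' : ¬(g x₁ = g x₂ ∧ g y₁ = (W.map g).toAffine.negY (g x₂) (g y₂)) := fun e =>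
        hxy ⟨g.injective e.1, g.injective (by rw [e.2, Affine.map_negY])⟩
      rw [Affine.Point.add_some hxy, Affine.Point.add_some hxy', Affine.Point.some.injEq]
      simp [Affine.map_slope, Affine.map_addY]

theorem pointMap_some (g : K →+* L) {W : WeierstrassCurve K} {W' : WeierstrassCurve L}
    (h : W.map g = W') {x y : K} (hxy : W.toAffine.Nonsingular x y) :
    pointMap g h (.some x y hxy) =
      .some (g x) (g y) (h ▸ (W.toAffine.map_nonsingular g.injective x y).2 hxy) := rfl

theorem pointMap_injective (g : K →+* L) {W : WeierstrassCurve K} {W' : WeierstrassCurve L}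
    (h : W.map g = W') : Function.Injective (pointMap g h) := by
  rintro (_ | ⟨x, y, _⟩) (_ | ⟨x', y', _⟩) e
  · rfl
  · exact absurd e.symm (Affine.Point.some_ne_zero _)
  · exact absurd e (Affine.Point.some_ne_zero _)
  · rw [pointMap_some, pointMap_some, Affine.Point.some.injEq] at e
    simp [g.injective e.1, g.injective e.2]

variable {F : Type*} [Field F] {p f : ℕ} [Fact p.Prime] [CharP F p]

theorem mapPoly_comap {k : Type*} [Field k] (g : k →+* F) :
    k[X]⁰ ≤ F[X]⁰.comap (Polynomial.mapRingHom g) :=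
  nonZeroDivisors_le_comap_nonZeroDivisors_of_injective _ (Polynomial.map_injective g g.injective)

/-- `F_p(u) → F(u)`. -/
def primeIncl (F : Type*) [Field F] (p : ℕ) [Fact p.Prime] [CharP F p] :
    RatFunc (ZMod p) →+* RatFunc F :=
  RatFunc.mapRingHom (Polynomial.mapRingHom (ZMod.castHom (dvd_refl p) F)) (mapPoly_comap _)

/-- The Frobenius on the coefficients. -/
def coeffFrob (F : Type*) [Field F] (p : ℕ) [Fact p.Prime] [CharP F p] :
    RatFunc F →+* RatFunc F :=
  RatFunc.mapRingHom (Polynomial.mapRingHom (frobenius F p)) (mapPoly_comap _)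

theorem coeffFrob_algebraMap (q : F[X]) : coeffFrob F p (algebraMap F[X] (RatFunc F) q) =
    algebraMap F[X] (RatFunc F) (q.map (frobenius F p)) := by
  simp [coeffFrob, RatFunc.coe_mapRingHom_eq_coe_map, RatFunc.map_apply]

theorem coeffFrob_tParam : coeffFrob F p (tParam p f) = tParam p f := by
  rw [tParam, coeffFrob_algebraMap, Polynomial.map_pow, Polynomial.map_X]

theorem primeIncl_algebraMap (q : (ZMod p)[X]) :
    primeIncl F p (algebraMap (ZMod p)[X] (RatFunc (ZMod p)) q) =
      algebraMap F[X] (RatFunc F) (q.map (ZMod.castHom (dvd_refl p) F)) := by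
  simp [primeIncl, RatFunc.coe_mapRingHom_eq_coe_map, RatFunc.map_apply]

theorem primeIncl_tParam : primeIncl F p (tParam p f) = tParam p f := by
  rw [tParam, tParam, primeIncl_algebraMap, Polynomial.map_pow, Polynomial.map_X]

/-- A fixed rational function has coefficients in the prime field. -/
theorem mem_range_primeIncl {x : RatFunc F} (hx : coeffFrob F p x = x) :
    ∃ a, primeIncl F p a = x := by
  set g := frobenius F p
  have hx' : algebraMap F[X] (RatFunc F) (x.num.map g) /
      algebraMap F[X] (RatFunc F) (x.denom.map g) = x := by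
    conv_rhs => rw [← hx]
    simp [coeffFrob, g, RatFunc.coe_mapRingHom_eq_coe_map, RatFunc.map_apply]
  have hne : x.denom.map g ≠ 0 := (x.monic_denom.map g).ne_zero
  have hden : x.denom.map g = x.denom :=
    eq_of_monic_of_dvd_of_natDegree_le x.monic_denom (x.monic_denom.map g)
      ((RatFunc.denom_dvd hne).2 ⟨_, hx'.symm⟩) (natDegree_map g).le
  have hnum : x.num.map g = x.num := by
    have h := hx'
    conv_rhs at h => rw [← RatFunc.num_div_denom x]
    rw [hden, div_left_inj' (RatFunc.algebraMap_ne_zero x.denom_ne_zero)] at h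
    exact RatFunc.algebraMap_injective F h
  have hlift : ∀ q : F[X], q.map g = q →
      ∃ q₀ : (ZMod p)[X], q₀.map (ZMod.castHom (dvd_refl p) F) = q := fun q hq => by
    refine (Polynomial.mem_lifts q).1 ((Polynomial.lifts_iff_coeff_lifts q).2 fun n => ?_)
    have hc : q.coeff n ^ p = q.coeff n := by
      conv_rhs => rw [← hq]
      rw [Polynomial.coeff_map]
      rfl
    have hb := (Subfield.mem_bot_iff_pow_eq_self F p).2 hc
    rw [← ZMod.fieldRange_castHom_eq_bot p] at hb
    exact hb
  obtain ⟨n, hn⟩ := hlift _ hnum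
  obtain ⟨d, hd⟩ := hlift _ hden
  refine ⟨algebraMap _ _ n / algebraMap _ _ d, ?_⟩
  rw [primeIncl, RatFunc.coe_mapRingHom_eq_coe_map, RatFunc.map_apply_div]
  simp [hn, hd, RatFunc.num_div_denom]

/-- `i ↦ p i` on the indices. -/
def frobPerm (hf : f ≠ 0) : Equiv.Perm (ZMod (p ^ f + 1)) :=
  MulAction.toPerm (ZMod.unitOfCoprime p ((Nat.coprime_self_add_right.2
    (Nat.coprime_one_right _)).coprime_dvd_left (dvd_pow_self p hf)))

theorem frobPerm_apply (hf : f ≠ 0) (i : ZMod (p ^ f + 1)) : frobPerm hf i = (p : ZMod _) * i := rfl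

theorem frobPerm_iterate (hf : f ≠ 0) (k : ℕ) (i : ZMod (p ^ f + 1)) :
    (frobPerm hf ^ k) i = (p : ZMod _) ^ k * i := by
  induction k generalizing i with
  | zero => simp
  | succ k ih => rw [pow_succ, Equiv.Perm.mul_apply, ih, frobPerm_apply, pow_succ, mul_assoc]

theorem frobPerm_pow (hf : f ≠ 0) : (frobPerm (p := p) hf) ^ (2 * f) = 1 := by
  ext i
  have h : ((p : ZMod (p ^ f + 1)) ^ f + 1) = 0 := by
    exact_mod_cast ZMod.natCast_self (p ^ f + 1)
  rw [frobPerm_iterate, mul_comm 2 f, pow_mul, eq_neg_of_add_eq_zero_left h, neg_one_sq, one_mul,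
    Equiv.Perm.one_apply]

theorem coeffFrob_point {ζ : F} (hp2 : p ≠ 2) (hf : f ≠ 0) (hζ : IsPrimitiveRoot ζ (p ^ f + 1))
    (h : (ulmerCurve (tParam p f : RatFunc F)).map (coeffFrob F p) = ulmerCurve (tParam p f))
    (i : ZMod (p ^ f + 1)) :
    pointMap (coeffFrob F p) h (uPoint hp2 hζ i) = uPoint hp2 hζ (frobPerm hf i) := by
  have hz : frobenius F p (ζ ^ i.val) = ζ ^ (frobPerm hf i).val := by
    have hp' : (p : ZMod (p ^ f + 1)).val = p % (p ^ f + 1) := ZMod.val_natCast ..
    rw [frobPerm_apply, ZMod.val_mul, hp', Nat.mod_mul_mod, frobenius_def, ← pow_mul,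
      mul_comm p i.val]
    conv_lhs => rw [← Nat.mod_add_div (i.val * p) (p ^ f + 1)]
    rw [pow_add, pow_mul, hζ.pow_eq_one, one_pow, mul_one]
  have hv : (vPoly ζ i).map (frobenius F p) = vPoly ζ (frobPerm hf i) := by
    rw [vPoly, vPoly, Polynomial.map_mul, Polynomial.map_C, Polynomial.map_X, hz]
  rw [uPoint, pointMap_some, uPoint, Affine.Point.some.injEq]
  constructor <;> rw [coeffFrob_algebraMap] <;> simp [hv]

/-- Curve, classes and points over the prime field. -/
theorem exists_independent_descended {ζ : F} (hp2 : p ≠ 2) (hf : f ≠ 0)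
    (hζ : IsPrimitiveRoot ζ (p ^ f + 1)) {n : ℕ} (hn : (n + 2) * (2 * f) ≤ p ^ f + 1) :
    ∃ Q : Fin n → (ulmerCurve (tParam p f : RatFunc (ZMod p))).toAffine.Point,
      LinearIndependent ℤ Q := by
  set π := frobPerm (p := p) hf with hπ
  set S := Equiv.Perm.SameCycle.setoid π
  have hS : (ulmerCurve (tParam p f : RatFunc F)).map (coeffFrob F p) =
      ulmerCurve (tParam p f) := by rw [map_ulmerCurve, coeffFrob_tParam]
  have hI : (ulmerCurve (tParam p f : RatFunc (ZMod p))).map (primeIncl F p) =
      ulmerCurve (tParam p f) := by rw [map_ulmerCurve, primeIncl_tParam]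
  have hmk : ∀ i, Quotient.mk S (π i) = Quotient.mk S i := fun i =>
    Quotient.sound (Equiv.Perm.sameCycle_apply_left.2 (Equiv.Perm.SameCycle.refl π i))
  let R : Quotient S → (ulmerCurve (tParam p f : RatFunc F)).toAffine.Point := fun O =>
    ∑ i ∈ Finset.univ.filter (fun i => Quotient.mk S i = O), uPoint hp2 hζ i
  have hfix : ∀ O, pointMap (coeffFrob F p) hS (R O) = R O := fun O => by
    simp only [R, map_sum, coeffFrob_point hp2 hf hζ hS]
    exact Finset.sum_equiv π (fun i => by simp [hmk]) fun i _ => rfl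
  have hex : ∀ O, ∃ Q, pointMap (primeIncl F p) hI Q = R O := fun O => by
    have h := hfix O
    generalize R O = P at h
    rcases P with _ | ⟨x, y, hxy⟩
    · exact ⟨0, map_zero _⟩
    · rw [pointMap_some, Affine.Point.some.injEq] at h
      obtain ⟨a, ha⟩ := mem_range_primeIncl h.1
      obtain ⟨b, hb⟩ := mem_range_primeIncl h.2
      have hab : (ulmerCurve (tParam p f : RatFunc (ZMod p))).toAffine.Nonsingular a b := by
        rw [← Affine.map_nonsingular _ (f := primeIncl F p) (RingHom.injective _), ha, hb]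
        convert hxy
      exact ⟨.some a b hab, by rw [pointMap_some, Affine.Point.some.injEq]; exact ⟨ha, hb⟩⟩
  choose Q hQ using hex
  let φ : (ulmerCurve (tParam p f : RatFunc (ZMod p))).toAffine.Point →+ (Quotient S → ZMod 2) :=
    (AddMonoidHom.mk' (fun v O => v O.out) fun _ _ => rfl).comp
      ((rootClasses ζ).comp (pointMap (primeIncl F p) hI))
  have hφ : ∀ O, φ (Q O) = Pi.single O 1 := fun O => by
    funext O'
    simp only [φ, AddMonoidHom.comp_apply, hQ, R, map_sum, rootClasses_uPoint,
      AddMonoidHom.mk'_apply, Finset.sum_apply, Pi.single_apply]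
    simp [Quotient.out_eq]
  obtain ⟨hfin, h4⟩ := two_torsion_le (t := (tParam p f : RatFunc (ZMod p)))
    (two_ne_zero_ratFunc Fact.out hp2)
  refine exists_independent Q φ
    (fun v => (two_nsmul v).trans (funext fun _ => CharTwo.add_self_eq_zero _)) ?_ h4
    (m := Nat.card (Quotient S)) ?_ ?_
  · simp only [hφ]
    exact closure_single_eq_top
  · rw [Nat.card_fun, Nat.card_zmod]
  · have hsurj : Function.Surjective
        fun z : Quotient S × Fin (2 * f) => (π ^ (z.2 : ℕ)) z.1.out := fun i => by
      have hc : π.SameCycle (Quotient.mk S i).out i := Quotient.mk_out i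
      obtain ⟨k, -, hk⟩ := Equiv.Perm.SameCycle.exists_pow_eq' hc
      refine ⟨(Quotient.mk S i, ⟨k % (2 * f), Nat.mod_lt _ (by omega)⟩), ?_⟩
      show (π ^ (k % (2 * f))) _ = i
      rwa [← pow_eq_pow_mod k (frobPerm_pow hf)]
    have h := Nat.card_le_card_of_surjective _ hsurj
    rw [Nat.card_prod, Nat.card_fin, Nat.card_zmod] at h
    exact Nat.le_of_mul_le_mul_right (hn.trans h) (by omega)

end FA.FunctionFieldRank
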