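import Fermat.Agent.FunctionFieldRank.Height
import Fermat.Agent.EC.MulFormula
import Mathlib.NumberTheory.Height.EllipticCurve
import Mathlib.GroupTheory.Descent

/-!
# The descent at `2` over a rational function field with finite constants

The naive height obeys the approximate parallelogram law and has finitely many points below each
bound, so a finite quotient by the doubles makes the group of points finitely generated.
-/

set_option autoImplicit false
set_option linter.style.haveILetI false

noncomputable section

open WeierstrassCurve Height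
open scoped Classical

namespace FA.FunctionFieldRank

attribute [local instance] heightData

variable {F : Type*} [Field F] {E : WeierstrassCurve (RatFunc F)}

/-- The naive height of a point. -/
def naiveHgt (P : E.toAffine.Point) : ℝ := logHeight P.xRep

theorem naiveHgt_nonneg (P : E.toAffine.Point) : 0 ≤ naiveHgt P := logHeight_nonneg _

theorem naiveHgt_parallelogram [E.IsElliptic] : ∃ C, ∀ P Q : E.toAffine.Point,
    |naiveHgt (P + Q) + naiveHgt (P - Q) - 2 * (naiveHgt P + naiveHgt Q)| ≤ C := by
  obtain ⟨C₁, h₁⟩ := abs_logHeight_addSubMap_sub_two_mul_logHeight_le E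
  obtain ⟨C₂, h₂⟩ := abs_logHeight_sym2_sub_le (K := RatFunc F)
  have hsym : ∀ P Q : E.toAffine.Point,
      |logHeight (FA.EC.symPair P.xRep Q.xRep) - (naiveHgt P + naiveHgt Q)| ≤ C₂ := fun P Q => by
    have hP : ![P.xRep 0, P.xRep 1] = P.xRep := by ext i; fin_cases i <;> rfl
    have hQ : ![Q.xRep 0, Q.xRep 1] = Q.xRep := by ext i; fin_cases i <;> rfl
    have h := h₂ (a := P.xRep 0) (b := P.xRep 1) (c := Q.xRep 0) (d := Q.xRep 1)
      (hP.symm ▸ Affine.Point.xRep_ne_zero P) (hQ.symm ▸ Affine.Point.xRep_ne_zero Q)
    rw [hP, hQ] at h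
    exact h
  refine ⟨C₁ + 3 * C₂, fun P Q => ?_⟩
  obtain ⟨c, hc, hcm⟩ := FA.EC.asub_xRep P Q
  have h := h₁ (FA.EC.symPair P.xRep Q.xRep)
  rw [← FA.EC.asub_eq_eval, hcm, logHeight_smul_eq_logHeight _ hc] at h
  have hd := hsym (P + Q) (P - Q)
  have hs := hsym P Q
  rw [abs_le] at h hd hs ⊢
  constructor <;> linarith [h.1, h.2, hd.1, hd.2, hs.1, hs.2]

variable [Finite F]

theorem northcott_naiveHgt : Northcott (naiveHgt (E := E)) where
  finite_le b := by
    haveI := northcott_mulHeight₁ (F := F)
    have himg : ((fun P : E.toAffine.Point => P.xRep) '' {P | naiveHgt P ≤ b}).Finite := by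
      refine ((Northcott.finite_le (h := logHeight₁ (K := RatFunc F)) b).image fun x => ![x, 1]).insert
        ![1, 0] |>.subset ?_
      rintro _ ⟨P, hP, rfl⟩
      rcases P with _ | ⟨x, y, h⟩
      · exact Or.inl rfl
      · refine Or.inr ⟨x, ?_, rfl⟩
        show logHeight₁ x ≤ b
        rw [logHeight₁_eq_logHeight]
        exact hP
    refine Set.Finite.of_finite_fibers _ himg fun v hv => ?_
    obtain ⟨P₀, -, rfl⟩ := hv
    refine ((Set.finite_singleton (-P₀)).insert P₀).subset fun P hP => ?_
    exact (Affine.Point.eq_or_eq_neg_of_xRep_eq_xRep hP.2).imp id id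

/-- **Mordell–Weil over `F(u)`**: a finite quotient by the doubles gives finite generation. -/
theorem fg_of_finiteIndex_two [E.IsElliptic]
    (h : (nsmulAddMonoidHom (α := E.toAffine.Point) 2).range.FiniteIndex) :
    AddGroup.FG E.toAffine.Point := by
  obtain ⟨C, hC⟩ := naiveHgt_parallelogram (E := E)
  have := northcott_naiveHgt (E := E)
  refine AddCommGroup.fg_of_descent (n := 2) (h := naiveHgt) (a := 2) (b := 4)
    (c := fun g => 2 * naiveHgt g + C) (c₀ := C + naiveHgt (0 : E.toAffine.Point))
    (by norm_num) (by norm_num) h (fun g x => ?_) fun x => ?_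
  · have h1 := (abs_le.mp (hC (g + x) g)).2
    rw [show g + x - g = x by abel] at h1
    linarith [naiveHgt_nonneg (g + x + g)]
  · have h2 := (abs_le.mp (hC x x)).1
    rw [sub_self, ← two_nsmul] at h2
    linarith

end FA.FunctionFieldRank
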