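import Mathlib.FieldTheory.RatFunc.Degree
import Mathlib.NumberTheory.Height.Northcott
import Mathlib.RingTheory.Polynomial.UniqueFactorization
import Mathlib.RingTheory.UniqueFactorizationDomain.Nat
import Mathlib.Algebra.Polynomial.Degree.Lemmas
import Mathlib.RingTheory.Polynomial.Basic
import Mathlib.Tactic.Linarith

/-!
# Heights on the rational functions

The absolute values are those of the monic irreducible polynomials and of infinity, normalised
by the degree; they satisfy the product formula, and an element of height at most `q ^ N` (`q` the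
number of constants, or `2` when infinite) has numerator and denominator of degree at most `N`.
-/

set_option autoImplicit false
set_option linter.unusedSectionVars false
set_option linter.style.haveILetI false

noncomputable section

open Polynomial UniqueFactorizationMonoid
open scoped Classical

namespace FA.FunctionFieldRank

variable {F : Type*} [Field F]

/-- The monic irreducible polynomials. -/
abbrev MonicPrime (F : Type*) [Field F] : Type _ := {P : F[X] // P.Monic ∧ Irreducible P}

/-- The exponent of `P` in `g`. -/
def expAt (P g : F[X]) : ℕ := (normalizedFactors g).count P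

theorem normalize_monicPrime (P : MonicPrime F) : normalize P.1 = P.1 := P.2.1.normalize_eq_self

theorem pow_dvd_iff_le_expAt (P : MonicPrime F) {g : F[X]} (hg : g ≠ 0) (k : ℕ) :
    P.1 ^ k ∣ g ↔ k ≤ expAt P.1 g := by
  rw [dvd_iff_normalizedFactors_le_normalizedFactors (pow_ne_zero _ P.2.2.ne_zero) hg,
    normalizedFactors_pow, normalizedFactors_irreducible P.2.2, normalize_monicPrime,
    Multiset.nsmul_singleton, expAt, Multiset.le_count_iff_replicate_le]

theorem expAt_mul (P : F[X]) {g h : F[X]} (hg : g ≠ 0) (hh : h ≠ 0) :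
    expAt P (g * h) = expAt P g + expAt P h := by
  rw [expAt, normalizedFactors_mul hg hh, Multiset.count_add]
  rfl

theorem expAt_one (P : F[X]) : expAt P (1 : F[X]) = 0 := by simp [expAt]

theorem expAt_self (P : MonicPrime F) : expAt P.1 P.1 = 1 := by
  rw [expAt, normalizedFactors_irreducible P.2.2, normalize_monicPrime, Multiset.count_singleton_self]

theorem expAt_eq_zero_of_ne (P Q : MonicPrime F) (h : P ≠ Q) : expAt P.1 Q.1 = 0 := by
  rw [expAt, normalizedFactors_irreducible Q.2.2, normalize_monicPrime, Multiset.count_singleton,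
    if_neg fun e => h (Subtype.ext e)]

/-- The monic irreducible factors. -/
def primeSupport (g : F[X]) : Finset (MonicPrime F) :=
  (normalizedFactors g).toFinset.subtype fun P => P.Monic ∧ Irreducible P

theorem mem_primeSupport {g : F[X]} {P : MonicPrime F} :
    P ∈ primeSupport g ↔ expAt P.1 g ≠ 0 := by
  simp [primeSupport, expAt]

theorem monic_of_mem_factors {g P : F[X]} (h : P ∈ normalizedFactors g) :
    P.Monic ∧ Irreducible P := by
  have hi := irreducible_of_normalized_factor P h
  exact ⟨by rw [← normalize_normalized_factor P h]; exact monic_normalize hi.ne_zero, hi⟩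

theorem natDegree_eq_sum {g : F[X]} (hg : g ≠ 0) (S : Finset (MonicPrime F))
    (hS : primeSupport g ⊆ S) : g.natDegree = ∑ P ∈ S, P.1.natDegree * expAt P.1 g := by
  rw [← Finset.sum_subset hS fun P _ hP => by
    rw [mem_primeSupport, not_not] at hP; rw [hP, mul_zero]]
  have h1 : g.natDegree = ((normalizedFactors g).map natDegree).sum := by
    conv_lhs => rw [← leadingCoeff_mul_prod_normalizedFactors g]
    rw [natDegree_C_mul (leadingCoeff_ne_zero.2 hg), natDegree_multiset_prod _]
    exact fun h => (monic_of_mem_factors h).2.ne_zero rfl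
  have h2 := Finset.sum_map (primeSupport g) (Function.Embedding.subtype _)
    (fun P : F[X] => P.natDegree * expAt P g)
  simp only [Function.Embedding.subtype_apply] at h2
  rw [h1, Finset.sum_multiset_map_count, ← h2, primeSupport, Finset.subtype_map,
    Finset.filter_true_of_mem fun P hP => monic_of_mem_factors (Multiset.mem_toFinset.1 hP)]
  exact Finset.sum_congr rfl fun P _ => by rw [smul_eq_mul, mul_comm]; rfl

/-- The order of a rational function at a monic irreducible. -/
def ordAt (P : MonicPrime F) (x : RatFunc F) : ℤ :=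
  (expAt P.1 x.num : ℤ) - expAt P.1 x.denom

theorem ordAt_mul (P : MonicPrime F) {x y : RatFunc F} (hx : x ≠ 0) (hy : y ≠ 0) :
    ordAt P (x * y) = ordAt P x + ordAt P y := by
  have h := congrArg (expAt P.1) (RatFunc.num_denom_mul x y)
  have nx := RatFunc.num_ne_zero hx
  have ny := RatFunc.num_ne_zero hy
  have dx := RatFunc.denom_ne_zero x
  have dy := RatFunc.denom_ne_zero y
  rw [expAt_mul _ (RatFunc.num_ne_zero (mul_ne_zero hx hy)) (mul_ne_zero dx dy),
    expAt_mul _ dx dy, expAt_mul _ (mul_ne_zero nx ny) (RatFunc.denom_ne_zero _),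
    expAt_mul _ nx ny] at h
  simp only [ordAt]
  omega

theorem min_le_ordAt_add (P : MonicPrime F) {x y : RatFunc F} (hx : x ≠ 0) (hy : y ≠ 0)
    (hxy : x + y ≠ 0) : min (ordAt P x) (ordAt P y) ≤ ordAt P (x + y) := by
  have h := RatFunc.num_denom_add x y
  have nx := RatFunc.num_ne_zero hx
  have ny := RatFunc.num_ne_zero hy
  have dx := RatFunc.denom_ne_zero x
  have dy := RatFunc.denom_ne_zero y
  set s := x.num * y.denom + x.denom * y.num
  have hs : s ≠ 0 := fun e => by
    rw [e, zero_mul, mul_eq_zero] at h
    exact h.elim (RatFunc.num_ne_zero hxy) (mul_ne_zero dx dy)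
  have h' := congrArg (expAt P.1) h
  rw [expAt_mul _ (RatFunc.num_ne_zero hxy) (mul_ne_zero dx dy), expAt_mul _ dx dy,
    expAt_mul _ hs (RatFunc.denom_ne_zero _)] at h'
  have hk : min (expAt P.1 x.num + expAt P.1 y.denom) (expAt P.1 x.denom + expAt P.1 y.num) ≤
      expAt P.1 s := by
    rw [← pow_dvd_iff_le_expAt P hs]
    refine dvd_add ?_ ?_ <;> rw [pow_dvd_iff_le_expAt P (mul_ne_zero ‹_› ‹_›),
      expAt_mul _ ‹_› ‹_›]
    exacts [min_le_left _ _, min_le_right _ _]
  simp only [ordAt]
  omega

/-- An absolute value from an additive exponent. -/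
def expAbv (q : ℝ) (hq : 1 < q) (w : RatFunc F → ℤ)
    (hmul : ∀ {x y}, x ≠ 0 → y ≠ 0 → w (x * y) = w x + w y)
    (hadd : ∀ {x y}, x ≠ 0 → y ≠ 0 → x + y ≠ 0 → w (x + y) ≤ max (w x) (w y)) :
    AbsoluteValue (RatFunc F) ℝ where
  toFun x := if x = 0 then 0 else q ^ w x
  map_mul' x y := by
    by_cases hx : x = 0
    · simp [hx]
    by_cases hy : y = 0
    · simp [hy]
    simp [hx, hy, hmul hx hy, zpow_add₀ (zero_lt_one.trans hq).ne']
  nonneg' x := by
    have := zero_lt_one.trans hq
    split_ifs <;> positivity
  eq_zero' x := by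
    by_cases hx : x = 0
    · simp [hx]
    · simp [hx, (zpow_pos (zero_lt_one.trans hq) (w x)).ne']
  add_le' x y := by
    have hpos : ∀ k : ℤ, 0 < q ^ k := fun k => zpow_pos (zero_lt_one.trans hq) k
    by_cases hx : x = 0
    · simp [hx]
    by_cases hy : y = 0
    · simp [hy]
    by_cases hxy : x + y = 0
    · simp only [hxy, hx, hy, if_true, if_false]
      exact (add_pos (hpos _) (hpos _)).le
    simp only [hx, hy, hxy, if_false]
    rcases le_max_iff.1 (hadd hx hy hxy) with h | h
    · exact (zpow_le_zpow_right₀ hq.le h).trans (le_add_of_nonneg_right (hpos _).le)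
    · exact (zpow_le_zpow_right₀ hq.le h).trans (le_add_of_nonneg_left (hpos _).le)

variable {q : ℝ} {hq : 1 < q} {w : RatFunc F → ℤ}
  {hmul : ∀ {x y}, x ≠ 0 → y ≠ 0 → w (x * y) = w x + w y}
  {hadd : ∀ {x y}, x ≠ 0 → y ≠ 0 → x + y ≠ 0 → w (x + y) ≤ max (w x) (w y)}

theorem expAbv_apply {x : RatFunc F} (hx : x ≠ 0) : expAbv q hq w hmul hadd x = q ^ w x :=
  if_neg hx

theorem isNonarchimedean_expAbv : IsNonarchimedean (expAbv q hq w hmul hadd) := fun x y => by
  by_cases hx : x = 0
  · simp [hx]
  by_cases hy : y = 0
  · simp [hy]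
  by_cases hxy : x + y = 0
  · simp [hxy]
  rw [expAbv_apply hxy, expAbv_apply hx, expAbv_apply hy,
    ← (zpow_right_mono₀ hq.le).map_max]
  exact zpow_le_zpow_right₀ hq.le (hadd hx hy hxy)

/-- The places: `none` is infinity. -/
def placeWeight : Option (MonicPrime F) → RatFunc F → ℤ
  | none, x => x.intDegree
  | some P, x => -(P.1.natDegree * ordAt P x)

theorem placeWeight_mul (o : Option (MonicPrime F)) {x y : RatFunc F} (hx : x ≠ 0) (hy : y ≠ 0) :
    placeWeight o (x * y) = placeWeight o x + placeWeight o y := by
  cases o with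
  | none => exact RatFunc.intDegree_mul hx hy
  | some P => simp only [placeWeight, ordAt_mul P hx hy]; ring

theorem placeWeight_add (o : Option (MonicPrime F)) {x y : RatFunc F} (hx : x ≠ 0) (hy : y ≠ 0)
    (hxy : x + y ≠ 0) : placeWeight o (x + y) ≤ max (placeWeight o x) (placeWeight o y) := by
  cases o with
  | none => exact RatFunc.intDegree_add_le hy hxy
  | some P =>
    have h := min_le_ordAt_add P hx hy hxy
    have hd : (0 : ℤ) ≤ P.1.natDegree := Int.natCast_nonneg _
    rcases min_le_iff.1 h with h | h
    · exact le_max_of_le_left (neg_le_neg (mul_le_mul_of_nonneg_left h hd))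
    · exact le_max_of_le_right (neg_le_neg (mul_le_mul_of_nonneg_left h hd))

/-- Places at which `x` is no unit. -/
def placeSupport (x : RatFunc F) : Finset (Option (MonicPrime F)) :=
  insert none ((primeSupport x.num ∪ primeSupport x.denom).map Function.Embedding.some)

theorem placeWeight_eq_zero {x : RatFunc F} {o : Option (MonicPrime F)}
    (ho : o ∉ placeSupport x) : placeWeight o x = 0 := by
  cases o with
  | none => simp [placeSupport] at ho
  | some P =>
    simp only [placeSupport, Finset.mem_insert, reduceCtorEq, Finset.mem_map,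
      Function.Embedding.some_apply, Option.some.injEq, exists_eq_right, Finset.mem_union,
      false_or, not_or, mem_primeSupport, not_not] at ho
    simp [placeWeight, ordAt, ho.1, ho.2]

theorem sum_placeWeight {x : RatFunc F} (hx : x ≠ 0) :
    ∑ o ∈ placeSupport x, placeWeight o x = 0 := by
  rw [placeSupport, Finset.sum_insert (by simp), Finset.sum_map]
  simp only [Function.Embedding.some_apply, placeWeight, RatFunc.intDegree]
  rw [natDegree_eq_sum (RatFunc.num_ne_zero hx) _ Finset.subset_union_left,
    natDegree_eq_sum x.denom_ne_zero _ (Finset.subset_union_right (s₁ := primeSupport x.num))]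
  push_cast
  rw [← Finset.sum_sub_distrib, ← Finset.sum_add_distrib]
  refine Finset.sum_eq_zero fun P _ => ?_
  simp only [ordAt]
  ring

variable (F) in
/-- The base of the absolute values: the number of constants, or `2` if that number is infinite. -/
def degBase : ℝ := max (Nat.card F : ℝ) 2

theorem one_lt_degBase : (1 : ℝ) < degBase F := lt_max_of_lt_right one_lt_two

/-- The absolute value of a place. -/
def placeAbv (o : Option (MonicPrime F)) : AbsoluteValue (RatFunc F) ℝ :=
  expAbv _ (one_lt_degBase (F := F)) (placeWeight o) (placeWeight_mul o) (placeWeight_add o)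

theorem placeAbv_apply (o : Option (MonicPrime F)) {x : RatFunc F} (hx : x ≠ 0) :
    placeAbv o x = degBase F ^ placeWeight o x := expAbv_apply hx

theorem ordAt_algebraMap (P : MonicPrime F) (g : F[X]) :
    ordAt P (algebraMap F[X] (RatFunc F) g) = expAt P.1 g := by
  simp [ordAt, RatFunc.num_algebraMap, RatFunc.denom_algebraMap, expAt_one]

theorem placeAbv_injective : Function.Injective (placeAbv (F := F)) := by
  have hw : ∀ o o' : Option (MonicPrime F), placeAbv o = placeAbv o' → ∀ Q : MonicPrime F,
      placeWeight o (algebraMap F[X] (RatFunc F) Q.1) =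
        placeWeight o' (algebraMap F[X] (RatFunc F) Q.1) := fun o o' e Q => by
    have hne := RatFunc.algebraMap_ne_zero (K := F) Q.2.2.ne_zero
    refine zpow_right_injective₀ (zero_lt_one.trans (one_lt_degBase (F := F))) (one_lt_degBase (F := F)).ne' ?_
    exact (placeAbv_apply o hne).symm.trans ((DFunLike.congr_fun e _).trans (placeAbv_apply o' hne))
  have key : ∀ (o : Option (MonicPrime F)) (Q : MonicPrime F),
      placeWeight o (algebraMap F[X] (RatFunc F) Q.1) < 0 ↔ o = some Q := fun o Q => by
    have hQ : 0 < Q.1.natDegree := Q.2.2.natDegree_pos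
    cases o with
    | none => simp [placeWeight, RatFunc.intDegree_polynomial]
    | some P =>
      by_cases h : P = Q
      · subst h; simp [placeWeight, ordAt_algebraMap, expAt_self, hQ]
      · simp [placeWeight, ordAt_algebraMap, expAt_eq_zero_of_ne P Q h, h]
  intro o o' e
  cases o with
  | none =>
    cases o' with
    | none => rfl
    | some P => exact absurd ((key none P).1 (by rw [hw _ _ e P]; exact (key _ P).2 rfl)) (by simp)
  | some P => exact ((key o' P).1 (by rw [← hw _ _ e P]; exact (key _ P).2 rfl)).symm

variable (F) in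
/-- **The height data of `F(u)`** for any field `F` of constants. -/
@[implicit_reducible]
def heightData : Height.AdmissibleAbsValues (RatFunc F) where
  archAbsVal := 0
  nonarchAbsVal := Set.range (placeAbv (F := F))
  isNonarchimedean := by
    rintro _ ⟨o, rfl⟩
    exact isNonarchimedean_expAbv
  hasFiniteMulSupport {x} hx := by
    refine ((placeSupport x).finite_toSet.image fun o =>
      (⟨_, o, rfl⟩ : Set.range (placeAbv (F := F)))).subset ?_
    rintro ⟨_, o, rfl⟩ hv
    refine ⟨o, by_contra fun ho => hv ?_, rfl⟩
    show placeAbv o x = 1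
    rw [placeAbv_apply o hx, placeWeight_eq_zero ho, zpow_zero]
  product_formula {x} hx := by
    rw [Multiset.map_zero, Multiset.prod_zero, one_mul,
      ← finprod_comp (Equiv.ofInjective _ placeAbv_injective) (Equiv.bijective _)]
    simp only [Equiv.ofInjective_apply, placeAbv_apply _ hx]
    rw [finprod_eq_prod_of_mulSupport_subset _ (s := placeSupport x) fun o ho => by
      by_contra h
      exact ho (by simp [placeWeight_eq_zero h])]
    have hq : degBase F ≠ 0 := (zero_lt_one.trans one_lt_degBase).ne'
    have : ∀ S : Finset (Option (MonicPrime F)), ∏ o ∈ S, degBase F ^ placeWeight o x =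
        degBase F ^ ∑ o ∈ S, placeWeight o x := fun S => by
      induction S using Finset.induction_on with
      | empty => simp
      | insert a S ha ih => rw [Finset.prod_insert ha, Finset.sum_insert ha, zpow_add₀ hq, ih]
    rw [this, sum_placeWeight hx, zpow_zero]

attribute [local instance] heightData

theorem pow_degree_le_mulHeight₁ (x : RatFunc F) :
    degBase F ^ max x.num.natDegree x.denom.natDegree ≤ Height.mulHeight₁ x := by
  rcases eq_or_ne x 0 with rfl | hx
  · simp [RatFunc.num_zero, RatFunc.denom_zero]
  set S := placeSupport x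
  have hq1 : (1 : ℝ) < degBase F := one_lt_degBase
  have h1 : Height.mulHeight₁ x = ∏ o ∈ S, max (degBase F ^ placeWeight o x) 1 := by
    rw [Height.mulHeight₁_eq]
    show (Multiset.map _ (0 : Multiset (AbsoluteValue (RatFunc F) ℝ))).prod *
      (∏ᶠ v : Set.range (placeAbv (F := F)), max (v.1 x) 1) = _
    rw [Multiset.map_zero, Multiset.prod_zero, one_mul,
      ← finprod_comp (Equiv.ofInjective _ placeAbv_injective) (Equiv.bijective _)]
    simp only [Equiv.ofInjective_apply, placeAbv_apply _ hx]
    exact finprod_eq_prod_of_mulSupport_subset _ fun o ho => by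
      by_contra h
      exact ho (by simp [placeWeight_eq_zero h])
  -- the primes of the denominator alone
  set D := primeSupport x.denom
  have hD : ∀ P ∈ D, placeWeight (some P) x = P.1.natDegree * expAt P.1 x.denom := fun P hP => by
    have hn : expAt P.1 x.num = 0 := by
      by_contra h
      have h' := (pow_dvd_iff_le_expAt P (RatFunc.num_ne_zero hx) 1).2 (Nat.one_le_iff_ne_zero.2 h)
      have h'' := (pow_dvd_iff_le_expAt P x.denom_ne_zero 1).2
        (Nat.one_le_iff_ne_zero.2 (mem_primeSupport.1 hP))
      rw [pow_one] at h' h''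
      exact P.2.2.not_isUnit ((RatFunc.isCoprime_num_denom x).isUnit_of_dvd' h' h'')
    simp [placeWeight, ordAt, hn]
  have hsub : insert none (D.map Function.Embedding.some) ⊆ S :=
    Finset.insert_subset_insert _ (Finset.map_subset_map.2 Finset.subset_union_right)
  have h2 : max (degBase F ^ x.intDegree) 1 * degBase F ^ x.denom.natDegree ≤
      Height.mulHeight₁ x := by
    rw [h1]
    refine le_trans ?_ (Finset.prod_le_prod_of_subset_of_one_le hsub
      (fun _ _ => le_trans zero_le_one (le_max_right _ _)) fun _ _ _ => le_max_right _ _)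
    rw [Finset.prod_insert (by simp), Finset.prod_map]
    refine mul_le_mul_of_nonneg_left ?_ (le_trans zero_le_one (le_max_right _ _))
    rw [natDegree_eq_sum x.denom_ne_zero D subset_rfl, ← Finset.prod_pow_eq_pow_sum]
    refine Finset.prod_le_prod (fun _ _ => by positivity) fun P hP => le_max_of_le_left ?_
    rw [Function.Embedding.some_apply, hD P hP, ← Nat.cast_mul, zpow_natCast]
  refine le_trans ?_ h2
  rcases le_total x.num.natDegree x.denom.natDegree with h | h
  · rw [max_eq_right h]
    exact le_mul_of_one_le_left (by positivity) (le_max_right _ _)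
  · rw [max_eq_left h]
    refine le_trans (le_of_eq ?_) (mul_le_mul_of_nonneg_right (le_max_left _ _) (by positivity))
    rw [RatFunc.intDegree, ← zpow_natCast, ← zpow_natCast, ← zpow_add₀ (zero_lt_one.trans hq1).ne',
      sub_add_cancel]

variable [Finite F]

theorem finite_degree_le (N : ℕ) : {g : F[X] | g.natDegree ≤ N}.Finite := by
  refine Set.Finite.of_finite_image (f := fun g => fun i : Fin (N + 1) => g.coeff i)
    (Set.toFinite _) ?_
  intro g hg h hh e
  ext n
  rcases Nat.lt_or_ge n (N + 1) with hn | hn
  · exact congrFun e ⟨n, hn⟩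
  · rw [coeff_eq_zero_of_natDegree_lt (lt_of_le_of_lt hg hn),
      coeff_eq_zero_of_natDegree_lt (lt_of_le_of_lt hh hn)]

/-- **Northcott's property.** -/
theorem northcott_mulHeight₁ : Northcott (Height.mulHeight₁ (K := RatFunc F)) where
  finite_le b := by
    obtain ⟨N, hN⟩ := pow_unbounded_of_one_lt b (one_lt_degBase (F := F))
    refine (((finite_degree_le N).prod (finite_degree_le N)).image
      fun z : F[X] × F[X] => algebraMap F[X] (RatFunc F) z.1 / algebraMap F[X] (RatFunc F) z.2).subset ?_
    intro x hx
    have h := lt_of_le_of_lt ((pow_degree_le_mulHeight₁ x).trans hx) hN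
    have h' := (pow_lt_pow_iff_right₀ one_lt_degBase).1 h
    exact ⟨(x.num, x.denom), ⟨by simp only [Set.mem_ofPred_eq]; omega,
      by simp only [Set.mem_ofPred_eq]; omega⟩, RatFunc.num_div_denom x⟩

end FA.FunctionFieldRank
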