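import Fermat.Agent.FunctionFieldRank.Legendre
import Fermat.Agent.FunctionFieldRank.Height
import Mathlib.FieldTheory.Finite.Basic
import Mathlib.FieldTheory.Separable
import Mathlib.RingTheory.Polynomial.Cyclotomic.Basic
import Mathlib.NumberTheory.LegendreSymbol.QuadraticChar.Basic

/-!
# When the classes of a point vanish, the three differences are squares

Write the abscissa as `n / m`; then `m (n - m) n (n - m + t m)` is a square of a polynomial. All
exponents in `m` are even, those in `n` outside the roots of `t = 1`, those in `n - m` outside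
`u = 0`; there the degrees decide, and the constants are squares by evaluation at `0` and at `1`.
-/

set_option autoImplicit false
set_option linter.unusedSectionVars false
set_option linter.style.haveILetI false

noncomputable section

open Polynomial
open scoped Classical

namespace FA.FunctionFieldRank

variable {F : Type*} [Field F]

theorem expAt_pos_iff (P : MonicPrime F) {g : F[X]} (hg : g ≠ 0) : 0 < expAt P.1 g ↔ P.1 ∣ g := by
  conv_rhs => rw [← pow_one P.1, pow_dvd_iff_le_expAt P hg]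
  exact Iff.rfl

theorem expAt_eq_zero_iff (P : MonicPrime F) {g : F[X]} (hg : g ≠ 0) :
    expAt P.1 g = 0 ↔ ¬P.1 ∣ g := by
  rw [← expAt_pos_iff P hg]; omega

theorem rootMultiplicity_eq_expAt {g : F[X]} (hg : g ≠ 0) (r : F) :
    g.rootMultiplicity r = expAt (X - Polynomial.C r) g :=
  eq_of_forall_le_iff fun k => by
    rw [le_rootMultiplicity_iff hg,
      pow_dvd_iff_le_expAt ⟨X - Polynomial.C r, monic_X_sub_C r, irreducible_X_sub_C r⟩ hg]

/-- Even exponents make a constant times a square. -/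
theorem exists_eq_C_mul_sq {g : F[X]} (hg : g ≠ 0) (h : ∀ P : MonicPrime F, Even (expAt P.1 g)) :
    ∃ c s, c ≠ 0 ∧ s ≠ 0 ∧ g = Polynomial.C c * s ^ 2 := by
  set M := UniqueFactorizationMonoid.normalizedFactors g
  refine ⟨g.leadingCoeff, ∏ P ∈ M.toFinset, P ^ (M.count P / 2), leadingCoeff_ne_zero.2 hg,
    Finset.prod_ne_zero_iff.2 fun P hP => pow_ne_zero _
      (monic_of_mem_factors (Multiset.mem_toFinset.1 hP)).2.ne_zero, ?_⟩
  conv_lhs => rw [← leadingCoeff_mul_prod_normalizedFactors g]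
  rw [Finset.prod_multiset_count, ← Finset.prod_pow]
  refine congrArg _ (Finset.prod_congr rfl fun P hP => ?_)
  rw [← pow_mul, Nat.div_mul_cancel]
  exact even_iff_two_dvd.1 (h ⟨P, monic_of_mem_factors (Multiset.mem_toFinset.1 hP)⟩)

theorem exists_polynomial_of_sq {z : RatFunc F} {W : F[X]}
    (h : z ^ 2 = algebraMap F[X] (RatFunc F) W) : ∃ Z : F[X], Z ^ 2 = W ∧
      algebraMap F[X] (RatFunc F) Z = z := by
  obtain ⟨Z, hZ⟩ := IsIntegrallyClosed.exists_algebraMap_eq_of_isIntegral_pow (R := F[X]) two_pos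
    (h ▸ isIntegral_algebraMap (R := F[X]) : IsIntegral F[X] (z ^ 2))
  exact ⟨Z, RatFunc.algebraMap_injective F (by rw [map_pow, hZ, h]), hZ⟩

variable {p f : ℕ} [Fact p.Prime] [CharP F p] {ζ : F}

theorem natCast_d_ne_zero (hf : f ≠ 0) : ((p ^ f + 1 : ℕ) : F) ≠ 0 := by
  rw [Nat.cast_add, Nat.cast_pow, CharP.cast_eq_zero, zero_pow hf, zero_add, Nat.cast_one]
  exact one_ne_zero

theorem even_d (hp2 : p ≠ 2) : Even (p ^ f + 1) :=
  ((Fact.out : p.Prime).odd_of_ne_two hp2).pow.add_one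

theorem cRoot_pow (hp2 : p ≠ 2) (hζ : IsPrimitiveRoot ζ (p ^ f + 1)) (i : ZMod (p ^ f + 1)) :
    cRoot ζ i ^ (p ^ f + 1) = 1 := by
  rw [cRoot, (even_d hp2).neg_pow, inv_pow, ← pow_mul, mul_comm, pow_mul, hζ.pow_eq_one, one_pow,
    inv_one]

/-- The primes of `u ^ d - 1`. -/
theorem eq_cRoot_of_dvd (hp2 : p ≠ 2) (hζ : IsPrimitiveRoot ζ (p ^ f + 1)) (P : MonicPrime F)
    (h : P.1 ∣ X ^ (p ^ f + 1) - 1) : ∃ i : ZMod (p ^ f + 1), P.1 = X - Polynomial.C (cRoot ζ i) := by
  rw [X_pow_sub_one_eq_prod (Nat.succ_pos _) hζ] at h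
  obtain ⟨r, hr, hd⟩ := P.2.2.prime.exists_mem_finset_dvd h
  have hP : P.1 = X - Polynomial.C r :=
    eq_of_monic_of_associated P.2.1 (monic_X_sub_C r)
      (P.2.2.associated_of_dvd (irreducible_X_sub_C r) hd)
  rw [Polynomial.mem_nthRootsFinset (Nat.succ_pos _)] at hr
  obtain ⟨k, hk, hk'⟩ := hζ.eq_pow_of_pow_eq_one (ξ := (-r)⁻¹) (by
    rw [inv_pow, (even_d hp2).neg_pow, hr, inv_one])
  refine ⟨(k : ZMod (p ^ f + 1)), ?_⟩
  rw [hP, cRoot, ZMod.val_natCast_of_lt hk, hk', inv_inv, neg_neg]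

theorem rootMultiplicity_one_sub (hp2 : p ≠ 2) (hf : f ≠ 0)
    (hζ : IsPrimitiveRoot ζ (p ^ f + 1)) (i : ZMod (p ^ f + 1)) :
    (1 - X ^ (p ^ f + 1) : F[X]).rootMultiplicity (cRoot ζ i) = 1 := by
  have hne : (1 - X ^ (p ^ f + 1) : F[X]) ≠ 0 := fun e => by
    simpa using congrArg (eval 0) e
  have hsep : (1 - X ^ (p ^ f + 1) : F[X]).Separable := by
    rw [← neg_sub, neg_eq_neg_one_mul]
    exact Separable.unit_mul isUnit_one.neg (by
      simpa using separable_X_pow_sub_C (1 : F) (natCast_d_ne_zero (p := p) hf) one_ne_zero)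
  refine le_antisymm (rootMultiplicity_le_one_of_separable hsep _) ?_
  rw [Nat.one_le_iff_ne_zero, ← Nat.pos_iff_ne_zero, rootMultiplicity_pos hne]
  simp [IsRoot, cRoot_pow hp2 hζ]

/-- `-1` is a square in a finite field with the roots. -/
theorem isSquare_neg_one_of_root [Finite F] (hp2 : p ≠ 2) (hf : f ≠ 0)
    (hζ : IsPrimitiveRoot ζ (p ^ f + 1)) : IsSquare (-1 : F) := by
  haveI := Fintype.ofFinite F
  obtain ⟨k, -, hk⟩ := FiniteField.card F p
  rw [FiniteField.isSquare_neg_one_iff, hk]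
  intro h3
  have hodd : Odd (k : ℕ) := by
    rcases Nat.even_or_odd (k : ℕ) with ⟨j, hj⟩ | ho
    · exfalso
      obtain ⟨i, hi⟩ := (Fact.out : p.Prime).odd_of_ne_two hp2
      rw [hj, ← two_mul, pow_mul, Nat.pow_mod] at h3
      have : p ^ 2 % 4 = 1 := by
        rw [hi, show (2 * i + 1) ^ 2 = 4 * (i * i + i) + 1 by ring, Nat.mul_add_mod]
      rw [this, one_pow] at h3
      omega
    · exact ho
  have hq : ((p : ZMod (p ^ f + 1)) ^ (k : ℕ)) = 1 := by
    have h := hζ.dvd_of_pow_eq_one _ (FiniteField.pow_card_sub_one_eq_one ζ (hζ.ne_zero (by omega)))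
    rw [hk, ← ZMod.natCast_eq_zero_iff, Nat.cast_sub (Nat.one_le_pow _ _ (Fact.out : p.Prime).pos),
      Nat.cast_pow, Nat.cast_one, sub_eq_zero] at h
    exact h
  have h2 : ((p : ZMod (p ^ f + 1)) ^ (2 * f)) = 1 := by
    have h : ((p : ZMod (p ^ f + 1)) ^ f + 1) = 0 := by
      exact_mod_cast ZMod.natCast_self (p ^ f + 1)
    rw [mul_comm 2 f, pow_mul, eq_neg_of_add_eq_zero_left h, neg_one_sq]
  have hg := pow_gcd_eq_one.2 ⟨hq, h2⟩
  rw [Nat.Coprime.gcd_mul_left_cancel_right f (Nat.coprime_two_left.2 hodd)] at hg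
  obtain ⟨e, he⟩ := Nat.gcd_dvd_right (k : ℕ) f
  have hpf : (p : ZMod (p ^ f + 1)) ^ f = 1 := by
    refine Eq.trans (congrArg ((p : ZMod (p ^ f + 1)) ^ ·) he) ?_
    show (p : ZMod (p ^ f + 1)) ^ (Nat.gcd (k : ℕ) f * e) = 1
    rw [pow_mul, hg, one_pow]
  have h : ((p : ZMod (p ^ f + 1)) ^ f + 1) = 0 := by
    exact_mod_cast ZMod.natCast_self (p ^ f + 1)
  rw [hpf, one_add_one_eq_two] at h
  have h' : p ^ f + 1 ∣ 2 := (ZMod.natCast_eq_zero_iff 2 _).1 (by exact_mod_cast h)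
  have := Nat.le_of_dvd two_pos h'
  have : 2 < p ^ f + 1 := Nat.succ_lt_succ (Nat.one_lt_pow hf (Fact.out : p.Prime).one_lt)
  omega

/-- The three differences are squares. -/
theorem squares_of_classes (hp2 : p ≠ 2) (hζ : IsPrimitiveRoot ζ (p ^ f + 1))
    (hneg : IsSquare (-1 : F)) {x y : RatFunc F} (h0 : x ≠ 0) (h1 : x ≠ 1)
    (h3 : x - 1 + tParam p f ≠ 0) (he : y ^ 2 = (x - 1) * x * (x - 1 + tParam p f))
    (hcl : ∀ i : ZMod (p ^ f + 1), parityAt (cRoot ζ i) x = 0) :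
    IsSquare x ∧ IsSquare (x - 1) ∧ IsSquare (x - 1 + tParam p f) := by
  set d := p ^ f + 1 with hd
  set n := x.num with hn
  set m := x.denom with hm
  have hdeven : Even d := even_d hp2
  have hm0 : m ≠ 0 := x.denom_ne_zero
  have hn0 : n ≠ 0 := RatFunc.num_ne_zero h0
  set A := algebraMap F[X] (RatFunc F) with hA
  have hAm : A m ≠ 0 := RatFunc.algebraMap_ne_zero hm0
  have hx : x * A m = A n := by
    conv_lhs => rw [← RatFunc.num_div_denom x]
    exact div_mul_cancel₀ _ hAm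
  set r := n - m with hr
  set w := n - m + X ^ d * m with hw
  have hr' : A r = (x - 1) * A m := by rw [hr, map_sub, ← hx]; ring
  have hw' : A w = (x - 1 + tParam p f) * A m := by
    rw [hw, map_add, map_sub, map_mul, ← hx, show A (X ^ d) = tParam p f from rfl]; ring
  have hr0 : r ≠ 0 := fun e => by
    rw [e, map_zero] at hr'
    exact (mul_ne_zero (sub_ne_zero.2 h1) hAm) hr'.symm
  have hw0 : w ≠ 0 := fun e => by
    rw [e, map_zero] at hw'
    exact (mul_ne_zero h3 hAm) hw'.symm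
  obtain ⟨Z, hZ, -⟩ := exists_polynomial_of_sq (z := y * A m ^ 2) (W := m * r * n * w) (by
    rw [map_mul, map_mul, map_mul, hr', hw', ← hx, mul_pow, he]; ring)
  have hsum : ∀ P : MonicPrime F,
      2 * expAt P.1 Z = expAt P.1 m + expAt P.1 r + expAt P.1 n + expAt P.1 w := fun P => by
    have hZ0 : Z ≠ 0 := fun e => by
      rw [e, zero_pow two_ne_zero] at hZ
      exact mul_ne_zero (mul_ne_zero (mul_ne_zero hm0 hr0) hn0) hw0 hZ.symm
    have h := congrArg (expAt P.1) hZ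
    rw [sq, expAt_mul _ hZ0 hZ0, expAt_mul _ (mul_ne_zero (mul_ne_zero hm0 hr0) hn0) hw0,
      expAt_mul _ (mul_ne_zero hm0 hr0) hn0, expAt_mul _ hm0 hr0] at h
    omega
  have hcop : ∀ P : MonicPrime F, ¬(P.1 ∣ m ∧ P.1 ∣ n) := fun P h =>
    P.2.2.not_isUnit ((RatFunc.isCoprime_num_denom x).isUnit_of_dvd' h.2 h.1)
  -- the denominator
  have hme : ∀ P : MonicPrime F, Even (expAt P.1 m) := fun P => by
    by_cases hPm : P.1 ∣ m
    · have hPn : ¬P.1 ∣ n := fun h => hcop P ⟨hPm, h⟩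
      have hPr : ¬P.1 ∣ r := fun h => hPn (by simpa [hr] using dvd_add h hPm)
      have hPw : ¬P.1 ∣ w := fun h =>
        hPr (by simpa [hw, hr] using dvd_sub h (hPm.mul_left (X ^ d)))
      have := hsum P
      rw [(expAt_eq_zero_iff P hn0).2 hPn, (expAt_eq_zero_iff P hr0).2 hPr,
        (expAt_eq_zero_iff P hw0).2 hPw] at this
      exact ⟨expAt P.1 Z, by omega⟩
    · rw [(expAt_eq_zero_iff P hm0).2 hPm]; exact Even.zero
  -- the numerator
  have hne : ∀ P : MonicPrime F, Even (expAt P.1 n) := fun P => by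
    by_cases hPn : P.1 ∣ n
    · have hPm : ¬P.1 ∣ m := fun h => hcop P ⟨h, hPn⟩
      have hPr : ¬P.1 ∣ r := fun h => hPm (by simpa [hr] using dvd_sub hPn h)
      by_cases hPt : P.1 ∣ X ^ d - 1
      · obtain ⟨i, hi⟩ := eq_cRoot_of_dvd hp2 hζ P hPt
        have h := hcl i
        rw [parityAt, ← hn, ← hm, rootMultiplicity_eq_expAt hn0, rootMultiplicity_eq_expAt hm0,
          ← hi, ← Nat.cast_add, ZMod.natCast_eq_zero_iff_even,
          (expAt_eq_zero_iff P hm0).2 hPm, add_zero] at h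
        exact h
      · have hPw : ¬P.1 ∣ w := fun h => by
          have h' : P.1 ∣ (X ^ d - 1) * m := by
            have := dvd_sub h hPn
            rwa [show w - n = (X ^ d - 1) * m by rw [hw]; ring] at this
          exact (P.2.2.prime.dvd_or_dvd h').elim hPt hPm
        have := hsum P
        rw [(expAt_eq_zero_iff P hm0).2 hPm, (expAt_eq_zero_iff P hr0).2 hPr,
          (expAt_eq_zero_iff P hw0).2 hPw] at this
        exact ⟨expAt P.1 Z, by omega⟩
    · rw [(expAt_eq_zero_iff P hn0).2 hPn]; exact Even.zero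
  -- the difference, away from `u = 0`
  let P₀ : MonicPrime F := ⟨X, monic_X, irreducible_X⟩
  have hro : ∀ P : MonicPrime F, P ≠ P₀ → Even (expAt P.1 r) := fun P hP => by
    by_cases hPr : P.1 ∣ r
    · have hPm : ¬P.1 ∣ m := fun h => hcop P ⟨h, by simpa [hr] using dvd_add hPr h⟩
      have hPn : ¬P.1 ∣ n := fun h => hPm (by simpa [hr] using dvd_sub h hPr)
      have hPw : ¬P.1 ∣ w := fun h => by
        have h' : P.1 ∣ X ^ d * m := by
          have := dvd_sub h hPr
          rwa [show w - r = X ^ d * m by rw [hw, hr]; ring] at this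
        rcases P.2.2.prime.dvd_or_dvd h' with h'' | h''
        · exact hP (Subtype.ext (eq_of_monic_of_associated P.2.1 monic_X
            (P.2.2.associated_of_dvd irreducible_X (P.2.2.prime.dvd_of_dvd_pow h''))))
        · exact hPm h''
      have := hsum P
      rw [(expAt_eq_zero_iff P hm0).2 hPm, (expAt_eq_zero_iff P hn0).2 hPn,
        (expAt_eq_zero_iff P hw0).2 hPw] at this
      exact ⟨expAt P.1 Z, by omega⟩
    · rw [(expAt_eq_zero_iff P hr0).2 hPr]; exact Even.zero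
  obtain ⟨c₁, μ, -, hμ, hmμ⟩ := exists_eq_C_mul_sq hm0 hme
  obtain ⟨c, ν, hc, hν, hnν⟩ := exists_eq_C_mul_sq hn0 hne
  have hdeg : ∀ {a : F} {s g : F[X]}, g ≠ 0 → g = Polynomial.C a * s ^ 2 → Even g.natDegree := by
    rintro a s g hg rfl
    rw [natDegree_C_mul (fun e => hg (by simp [e])), natDegree_pow]
    exact even_two_mul _
  have hdn := hdeg hn0 hnν
  have hdm := hdeg hm0 hmμ
  have hdr : Even r.natDegree := by
    rcases lt_trichotomy n.natDegree m.natDegree with h | h | h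
    · rw [hr, natDegree_sub_eq_right_of_natDegree_lt h]; exact hdm
    · have hle : r.natDegree ≤ m.natDegree :=
        (natDegree_sub_le n m).trans (by rw [h, max_self])
      have hXm : (X ^ d * m).natDegree = d + m.natDegree := by
        rw [natDegree_mul (pow_ne_zero _ X_ne_zero) hm0, natDegree_pow, natDegree_X, mul_one]
      have hwd : w.natDegree = d + m.natDegree := by
        rw [hw, ← hr, natDegree_add_eq_right_of_natDegree_lt (by rw [hXm]; omega), hXm]
      have h := congrArg natDegree hZ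
      rw [natDegree_pow, natDegree_mul (mul_ne_zero (mul_ne_zero hm0 hr0) hn0) hw0,
        natDegree_mul (mul_ne_zero hm0 hr0) hn0, natDegree_mul hm0 hr0, hwd] at h
      obtain ⟨a, ha⟩ := hdn
      obtain ⟨b, hb⟩ := hdm
      obtain ⟨e, he⟩ := hdeven
      exact ⟨Z.natDegree - a - b - b - e, by omega⟩
    · rw [hr, natDegree_sub_eq_left_of_natDegree_lt h]; exact hdn
  have hre : ∀ P : MonicPrime F, Even (expAt P.1 r) := fun P => by
    by_cases hP : P = P₀
    · subst hP
      have hsub : primeSupport r ⊆ insert P₀ (primeSupport r) := Finset.subset_insert _ _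
      rw [natDegree_eq_sum hr0 _ hsub, ← Finset.add_sum_erase _ _ (Finset.mem_insert_self _ _),
        show P₀.1.natDegree = 1 from natDegree_X, one_mul, Nat.even_add] at hdr
      refine hdr.2 (Finset.even_sum _ fun Q hQ => (hro Q (Finset.ne_of_mem_erase hQ)).mul_left _)
    · exact hro P hP
  obtain ⟨c', ρ, hc', hρ, hrρ⟩ := exists_eq_C_mul_sq hr0 hre
  -- the constants
  obtain ⟨e₁, he₁⟩ : IsSquare c₁ := by
    have h : c₁ * μ.leadingCoeff ^ 2 = 1 := by
      rw [← x.monic_denom.leadingCoeff, ← hm, hmμ, leadingCoeff_mul, leadingCoeff_C,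
        leadingCoeff_pow]
    refine ⟨μ.leadingCoeff⁻¹, ?_⟩
    rw [← mul_inv, ← sq, eq_inv_of_mul_eq_one_left h]
  obtain ⟨μ', hmμ', hμ'⟩ : ∃ μ', m = μ' ^ 2 ∧ μ' ≠ 0 := ⟨Polynomial.C e₁ * μ, by
    rw [hmμ, he₁, mul_pow, ← map_pow, sq e₁], mul_ne_zero (C_ne_zero.2 (fun e => hm0 (by
      rw [hmμ, he₁, e, mul_zero, map_zero, zero_mul]))) hμ⟩
  obtain ⟨Y, hY⟩ : μ' * ν * ρ ∣ Z := (IsIntegrallyClosed.pow_dvd_pow_iff two_ne_zero).1 (by
    rw [hZ, hmμ', hnν, hrρ]; exact ⟨Polynomial.C c' * Polynomial.C c * w, by ring⟩)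
  have hY2 : Y ^ 2 = Polynomial.C c' * Polynomial.C c * w := by
    refine mul_left_cancel₀ (pow_ne_zero 2 (mul_ne_zero (mul_ne_zero hμ' hν) hρ)) ?_
    rw [← mul_pow, ← hY, hZ, hmμ', hnν, hrρ]; ring
  have hcopE : ∀ a : F, ¬(μ'.eval a = 0 ∧ n.eval a = 0) := fun a h => by
    obtain ⟨u, v, huv⟩ := RatFunc.isCoprime_num_denom x
    have := congrArg (eval a) huv
    simp [← hn, ← hm, hmμ', h.1, h.2] at this
  have hw00 : w.eval 0 = r.eval 0 := by simp [hw, hr, hd]
  obtain ⟨γ, hγ⟩ : IsSquare c := by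
    by_cases hρ0 : ρ.eval 0 = 0
    · have hr00 : c * ν.eval 0 ^ 2 - μ'.eval 0 ^ 2 = 0 := by
        have : r.eval 0 = 0 := by simp [hrρ, hρ0]
        simpa [hr, hnν, hmμ'] using this
      have hν0 : ν.eval 0 ≠ 0 := fun e => hcopE 0 ⟨pow_eq_zero_iff two_ne_zero |>.1
        (by rw [e] at hr00; linear_combination -hr00), by simp [hnν, e]⟩
      exact ⟨μ'.eval 0 / ν.eval 0, by field_simp; linear_combination hr00⟩
    · have h := congrArg (eval 0) hY2
      simp only [eval_pow, eval_mul, eval_C, hw00, hrρ] at h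
      refine ⟨Y.eval 0 / (c' * ρ.eval 0), ?_⟩
      field_simp
      linear_combination -h
  obtain ⟨γ', hγ'⟩ : IsSquare c' := by
    have hw1 : w.eval 1 = n.eval 1 := by simp [hw]
    by_cases hν1 : ν.eval 1 = 0
    · obtain ⟨i, hi⟩ := hneg
      have hn1 : n.eval 1 = 0 := by simp [hnν, hν1]
      have hμ1 : μ'.eval 1 ≠ 0 := fun e => hcopE 1 ⟨e, hn1⟩
      have h : c' * ρ.eval 1 ^ 2 = n.eval 1 - μ'.eval 1 ^ 2 := by
        simpa [hr, hmμ'] using (congrArg (eval 1) hrρ).symm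
      have hρ1 : ρ.eval 1 ≠ 0 := fun e => hμ1 (pow_eq_zero_iff two_ne_zero |>.1
        (by rw [e, hn1] at h; linear_combination h))
      refine ⟨i * (μ'.eval 1 / ρ.eval 1), ?_⟩
      field_simp
      linear_combination h + hn1 + μ'.eval 1 ^ 2 * hi
    · have h := congrArg (eval 1) hY2
      simp only [eval_pow, eval_mul, eval_C, hw1, hnν] at h
      refine ⟨Y.eval 1 / (c * ν.eval 1), ?_⟩
      field_simp
      linear_combination -h
  have hxn : x = A n / A m := (RatFunc.num_div_denom x).symm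
  have hAμ : A m = A μ' * A μ' := by rw [hmμ', map_pow, sq]
  refine ⟨⟨A (Polynomial.C γ * ν) / A μ', ?_⟩, ⟨A (Polynomial.C γ' * ρ) / A μ', ?_⟩,
    ⟨A (Polynomial.C (γ * γ')⁻¹ * Y) / A μ', ?_⟩⟩
  · rw [hxn, div_mul_div_comm, ← map_mul A, ← hAμ, hnν, hγ, map_mul Polynomial.C]; congr 2; ring
  · rw [show x - 1 = A r / A m by rw [hr', mul_div_cancel_right₀ _ hAm], div_mul_div_comm,
      ← map_mul A, ← hAμ, hrρ, hγ', map_mul Polynomial.C]; congr 2; ring
  · rw [show x - 1 + tParam p f = A w / A m by rw [hw', mul_div_cancel_right₀ _ hAm],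
      div_mul_div_comm, ← map_mul A, ← hAμ]
    congr 2
    have hg0 : γ ≠ 0 := fun e => hc (by rw [hγ, e, mul_zero])
    have hg0' : γ' ≠ 0 := fun e => hc' (by rw [hγ', e, mul_zero])
    have hu : Polynomial.C (γ * γ')⁻¹ ^ 2 * (Polynomial.C c' * Polynomial.C c) = 1 := by
      rw [← map_pow, ← map_mul, ← map_mul, ← map_one Polynomial.C, hγ, hγ']
      congr 1
      field_simp
    calc w = Polynomial.C (γ * γ')⁻¹ ^ 2 * (Polynomial.C c' * Polynomial.C c) * w := by
          rw [hu, one_mul]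
      _ = _ := by rw [mul_assoc, ← hY2]; ring

end FA.FunctionFieldRank
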