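import Fermat.Agent.FunctionFieldRank.Halve
import Fermat.Agent.FunctionFieldRank.Squares
import Fermat.Agent.FunctionFieldRank.MordellWeil
import Fermat.Agent.TwoDescent.IsogenyBound

/-!
# The exact rank

A point with all classes zero is a double, so the doubles have index exactly `2 ^ d`; with four
points killed by two the rank is `d - 2`.
-/

set_option autoImplicit false
set_option linter.unusedSectionVars false
set_option linter.style.haveILetI false

noncomputable section

open WeierstrassCurve Polynomial
open FA.CM.Seven (twoCurve_negY)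
open scoped Classical

namespace FA.FunctionFieldRank

variable {F : Type*} [Field F] {p f : ℕ} [Fact p.Prime] [CharP F p] {ζ : F}

theorem parityAt_one_sub (hp2 : p ≠ 2) (hf : f ≠ 0) (hζ : IsPrimitiveRoot ζ (p ^ f + 1))
    (i : ZMod (p ^ f + 1)) : parityAt (cRoot ζ i) (1 - tParam p f : RatFunc F) = 1 := by
  rw [tParam, ← map_one (algebraMap F[X] (RatFunc F)), ← map_sub, parityAt_algebraMap,
    rootMultiplicity_one_sub hp2 hf hζ, Nat.cast_one]

variable [Finite F]

/-- **The classes detect the doubles.** -/
theorem ker_rootClasses (hp2 : p ≠ 2) (hf : f ≠ 0) (hζ : IsPrimitiveRoot ζ (p ^ f + 1)) :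
    (rootClasses (p := p) (f := f) ζ).ker = (nsmulAddMonoidHom
      (α := (ulmerCurve (tParam p f : RatFunc F)).toAffine.Point) 2).range := by
  refine le_antisymm (fun P hP => ?_) ?_
  · rw [AddMonoidHom.mem_ker] at hP
    rw [AddMonoidHom.mem_range]
    simp only [nsmulAddMonoidHom_apply]
    rcases P with _ | ⟨x, y, h⟩
    · exact ⟨0, nsmul_zero 2⟩
    have hcl : ∀ i : ZMod (p ^ f + 1), parityAt (cRoot ζ i) (if x = 0 then 1 - tParam p f else x) = 0 :=
      fun i => by
        have := congrFun hP i
        by_cases hx : x = 0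
        · subst hx
          rw [if_pos rfl]
          change classFun (fun (x : RatFunc F) (k : ZMod (p ^ f + 1)) => parityAt (cRoot ζ k) x) _ _
            (Affine.Point.some 0 y h) i = 0 at this
          rwa [classFun_some_zero] at this
        · rw [if_neg hx]
          change classFun (fun (x : RatFunc F) (k : ZMod (p ^ f + 1)) => parityAt (cRoot ζ k) x) _ _
            (Affine.Point.some x y h) i = 0 at this
          rwa [classFun_some hx] at this
    have hx0 : x ≠ 0 := fun e => by
      have := hcl 0
      rw [if_pos e, parityAt_one_sub hp2 hf hζ] at this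
      exact one_ne_zero this
    simp only [if_neg hx0] at hcl
    have hx3 : x - 1 + tParam p f ≠ 0 := fun e => by
      have := hcl 0
      rw [show x = 1 - tParam p f by linear_combination e, parityAt_one_sub hp2 hf hζ] at this
      exact one_ne_zero this
    have h2 := two_ne_zero_ratFunc (F := F) Fact.out hp2
    obtain ⟨ht0, ht1⟩ := tParam_ne (F := F) p f
    by_cases hx1 : x = 1
    · obtain ⟨j, hj⟩ := even_d (f := f) hp2
      exact exists_half_of_squares (α := 1) (β := 0)
        (γ := algebraMap F[X] (RatFunc F) (X ^ j)) h2 ht0 ht1 h (by rw [hx1, one_pow])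
        (by rw [hx1, sub_self, zero_pow two_ne_zero])
        (by rw [hx1, sub_self, zero_add, tParam, ← map_pow, ← pow_mul, mul_two, ← hj])
    obtain ⟨⟨α, hα⟩, ⟨β, hβ⟩, ⟨γ, hγ⟩⟩ := squares_of_classes hp2 hζ
      (isSquare_neg_one_of_root hp2 hf hζ) hx0 hx1 hx3 (ulmerCurve_equation.1 h.1) hcl
    exact exists_half_of_squares h2 ht0 ht1 h (by rw [hα, sq]) (by rw [hβ, sq]) (by rw [hγ, sq])
  · rintro _ ⟨Q, rfl⟩
    rw [AddMonoidHom.mem_ker, nsmulAddMonoidHom_apply, map_nsmul, two_nsmul]
    exact funext fun _ => CharTwo.add_self_eq_zero _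

theorem rootClasses_surjective (hp2 : p ≠ 2) (hζ : IsPrimitiveRoot ζ (p ^ f + 1)) :
    Function.Surjective (rootClasses (F := F) (p := p) (f := f) ζ) := by
  rw [← AddMonoidHom.range_eq_top, eq_top_iff, ← closure_single_eq_top, AddSubgroup.closure_le]
  rintro _ ⟨i, rfl⟩
  exact ⟨_, rootClasses_uPoint hp2 hζ i⟩

/-- **The index of the doubles is `2 ^ d`.** -/
theorem index_doubles (hp2 : p ≠ 2) (hf : f ≠ 0) (hζ : IsPrimitiveRoot ζ (p ^ f + 1)) :
    (nsmulAddMonoidHom (α := (ulmerCurve (tParam p f : RatFunc F)).toAffine.Point) 2).range.index =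
      2 ^ (p ^ f + 1) := by
  rw [← ker_rootClasses hp2 hf hζ, AddSubgroup.index_ker,
    AddMonoidHom.range_eq_top.2 (rootClasses_surjective hp2 hζ), AddSubgroup.card_top, Nat.card_fun,
    Nat.card_zmod, Nat.card_zmod]

/-- **Finite generation.** -/
theorem fg_points (hp2 : p ≠ 2) (hf : f ≠ 0) (hζ : IsPrimitiveRoot ζ (p ^ f + 1)) :
    AddGroup.FG (ulmerCurve (tParam p f : RatFunc F)).toAffine.Point := by
  haveI := isElliptic_tParam (F := F) p f hp2
  exact fg_of_finiteIndex_two ⟨by rw [index_doubles hp2 hf hζ]; exact pow_ne_zero _ two_ne_zero⟩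

/-- Four points are killed by two. -/
theorem four_le_two_torsion (hp2 : p ≠ 2)
    [Finite (AddCommGroup.torsion (ulmerCurve (tParam p f : RatFunc F)).toAffine.Point)] :
    4 ≤ Nat.card {s : AddCommGroup.torsion (ulmerCurve (tParam p f : RatFunc F)).toAffine.Point //
      2 • s = 0} := by
  haveI := isElliptic_tParam (F := F) p f hp2
  set t : RatFunc F := tParam p f
  obtain ⟨ht0, ht1⟩ : t ≠ 0 ∧ t ≠ 1 := tParam_ne p f
  have hns : ∀ u : RatFunc F, (u - 1) * u * (u - 1 + t) = 0 →
      (ulmerCurve t).toAffine.Nonsingular u 0 := fun u hu =>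
    Affine.equation_iff_nonsingular.mp (ulmerCurve_equation.mpr (by rw [hu, zero_pow two_ne_zero]))
  have htwo : ∀ {u : RatFunc F} {h : (ulmerCurve t).toAffine.Nonsingular u 0},
      2 • Affine.Point.some u 0 h = 0 := by
    intro u h
    rw [two_nsmul]
    exact Affine.Point.add_self_of_Y_eq (by simp)
  have e0 := hns 0 (by ring)
  have e1 := hns 1 (by ring)
  have e2 := hns (1 - t) (by ring)
  let g : Fin 4 → (ulmerCurve t).toAffine.Point :=
    ![0, .some _ _ e0, .some _ _ e1, .some _ _ e2]
  have hg : ∀ i, 2 • g i = 0 := fun i => by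
    fin_cases i
    · exact nsmul_zero 2
    all_goals exact htwo
  have n1 : (1 : RatFunc F) - t ≠ 0 := sub_ne_zero.2 ht1.symm
  have n2 : (1 : RatFunc F) - t ≠ 1 := fun e => ht0 (by linear_combination -e)
  have hinj : Function.Injective g := fun i j hij => by
    have n1' := n1.symm
    have n2' := n2.symm
    have n3 := (zero_ne_one : (0 : RatFunc F) ≠ 1)
    let xc : (ulmerCurve t).toAffine.Point → Option (RatFunc F) := fun P =>
      match P with
      | .zero => none
      | .some x _ _ => some x
    have h := congrArg xc hij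
    fin_cases i <;> fin_cases j <;>
      first
        | rfl
        | exact absurd (show (none : Option (RatFunc F)) = some _ from h) (by simp)
        | exact absurd (show some _ = (none : Option (RatFunc F)) from h) (by simp)
        | exact absurd (Option.some.inj (show some (0 : RatFunc F) = some 1 from h)) n3
        | exact absurd (Option.some.inj (show some (1 : RatFunc F) = some 0 from h)) n3.symm
        | exact absurd (Option.some.inj (show some (0 : RatFunc F) = some (1 - t) from h)) n1'
        | exact absurd (Option.some.inj (show some (1 - t : RatFunc F) = some 0 from h)) n1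
        | exact absurd (Option.some.inj (show some (1 : RatFunc F) = some (1 - t) from h)) n2'
        | exact absurd (Option.some.inj (show some (1 - t : RatFunc F) = some 1 from h)) n2
  have := Nat.card_le_card_of_injective (fun i => (⟨⟨g i, (AddCommGroup.mem_torsion _).2
    (isOfFinAddOrder_iff_nsmul_eq_zero.2 ⟨2, two_pos, hg i⟩)⟩, Subtype.ext (hg i)⟩ :
    {s : AddCommGroup.torsion (ulmerCurve t).toAffine.Point // 2 • s = 0}))
    fun i j h => hinj (congrArg (fun s => s.1.1) h)
  simpa using this

/-- **The rank is exactly `p ^ f - 1`.** -/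
theorem finrank_points (hp2 : p ≠ 2) (hf : f ≠ 0) (hζ : IsPrimitiveRoot ζ (p ^ f + 1)) :
    Module.finrank ℤ (ulmerCurve (tParam p f : RatFunc F)).toAffine.Point = p ^ f - 1 := by
  haveI := fg_points (F := F) hp2 hf hζ
  set G := (ulmerCurve (tParam p f : RatFunc F)).toAffine.Point
  haveI : Module.Finite ℤ G := Module.Finite.iff_addGroup_fg.mpr inferInstance
  haveI : AddGroup.FG (AddCommGroup.torsion G) := by
    obtain ⟨r, ⟨e⟩⟩ := FA.MordellWeil.exists_equiv_torsion_prod G
    exact AddGroup.fg_of_surjective (f := (AddMonoidHom.fst _ _).comp e.toAddMonoidHom)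
      (Prod.fst_surjective.comp e.surjective)
  haveI : Finite (AddCommGroup.torsion G) := AddCommGroup.finite_of_fg_isAddTorsion _
    fun x => by
      obtain ⟨x, hx⟩ := x
      exact AddSubmonoid.isOfFinAddOrder_coe.1 ((AddCommGroup.mem_torsion _).1 hx)
  refine le_antisymm ?_ ?_
  · have hi := index_doubles (F := F) hp2 hf hζ
    have h := FA.TwoDescent.card_two_mul_le_index (G := G)
      (by rw [hi]; exact pow_ne_zero _ two_ne_zero)
    rw [hi] at h
    have h' := (Nat.mul_le_mul_right _ (four_le_two_torsion (F := F) (f := f) hp2)).trans h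
    rw [show (4 : ℕ) = 2 ^ 2 from rfl, ← pow_add] at h'
    have := (Nat.pow_le_pow_iff_right one_lt_two).1 h'
    show Module.finrank ℤ G ≤ p ^ f - 1
    omega
  · obtain ⟨Q, hQ⟩ := exists_independent_points (F := F) hp2 hζ
    simpa using hQ.fintype_card_le_finrank

end FA.FunctionFieldRank
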