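import Fermat.Agent.FunctionFieldRank.Legendre

/-!
# Halving on `y² = (X - 1) X (X - 1 + t)`

If `X`, `X - 1` and `X - 1 + t` are the squares of `α`, `β`, `γ` the point is twice the one with
abscissa `X + α β + α γ + β γ`.
-/

set_option autoImplicit false
set_option linter.unusedSectionVars false
set_option linter.style.haveILetI false

noncomputable section

open WeierstrassCurve
open FA.CM.Seven (twoCurve_negY)
open scoped Classical

namespace FA.FunctionFieldRank

variable {K : Type*} [Field K]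

theorem exists_half_of_squares {t X y α β γ : K} (h2 : (2 : K) ≠ 0) (h0 : t ≠ 0) (h1 : t ≠ 1)
    (h : (ulmerCurve t).toAffine.Nonsingular X y) (hα : α ^ 2 = X) (hβ : β ^ 2 = X - 1)
    (hγ : γ ^ 2 = X - 1 + t) : ∃ R, 2 • R = Affine.Point.some X y h := by
  haveI := isElliptic_ulmerCurve h2 h0 h1
  have hab : α + β ≠ 0 := fun e => one_ne_zero (α := K) (by
    linear_combination hβ - hα + (α - β) * e)
  have hac : α + γ ≠ 0 := fun e => h1 (by linear_combination hα - hγ + (γ - α) * e)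
  have hbc : β + γ ≠ 0 := fun e => h0 (by linear_combination hβ - hγ + (γ - β) * e)
  set x₀ := X + α * β + α * γ + β * γ with hx₀
  set y₀ := (α + β) * (α + γ) * (β + γ) with hy₀
  have hy : y₀ ≠ 0 := mul_ne_zero (mul_ne_zero hab hac) hbc
  have e1 : x₀ = (α + β) * (α + γ) := by rw [hx₀]; linear_combination -hα
  have e2 : x₀ - 1 = (β + α) * (β + γ) := by rw [hx₀]; linear_combination -hβ
  have e3 : x₀ - 1 + t = (γ + α) * (γ + β) := by rw [hx₀]; linear_combination -hγ
  have hR : (ulmerCurve t).toAffine.Nonsingular x₀ y₀ :=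
    Affine.equation_iff_nonsingular.mp (ulmerCurve_equation.2 (by rw [hy₀, e3, e2, e1]; ring))
  have hne : y₀ ≠ (ulmerCurve t).toAffine.negY x₀ y₀ := by
    rw [twoCurve_negY, ne_eq, ← sub_eq_zero, show y₀ - -y₀ = 2 * y₀ by ring]
    exact mul_ne_zero h2 hy
  have hs : (ulmerCurve t).toAffine.slope x₀ x₀ y₀ y₀ = α + β + γ := by
    rw [Affine.slope_of_Y_ne rfl hne, div_eq_iff (sub_ne_zero.2 hne), twoCurve_negY, hy₀]
    simp only [zero_mul, sub_zero]
    calc 3 * x₀ ^ 2 + 2 * (t - 2) * x₀ + (1 - t)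
        = x₀ * (x₀ - 1) + x₀ * (x₀ - 1 + t) + (x₀ - 1) * (x₀ - 1 + t) := by ring
      _ = _ := by rw [e3, e2, e1]; ring
  have hx : (ulmerCurve t).toAffine.addX x₀ x₀ (α + β + γ) = X := by
    simp only [Affine.addX, hx₀]
    linear_combination hα + hβ + hγ
  obtain ⟨Y, hY, hdouble⟩ : ∃ Y, ∃ hY : (ulmerCurve t).toAffine.Nonsingular X Y,
      2 • Affine.Point.some x₀ y₀ hR = .some X Y hY := by
    have hxy : ¬(x₀ = x₀ ∧ y₀ = (ulmerCurve t).toAffine.negY x₀ y₀) := fun e => hne e.2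
    refine ⟨(ulmerCurve t).toAffine.addY x₀ x₀ y₀ (α + β + γ), ?_, ?_⟩
    · have := Affine.nonsingular_add hR hR hxy
      rwa [hs, hx] at this
    · rw [two_nsmul, Affine.Point.add_some hxy, Affine.Point.some.injEq]
      exact ⟨by rw [hs, hx], by rw [hs]⟩
  rcases Affine.Y_eq_of_X_eq hY.1 h.1 rfl with e | e
  · subst e; exact ⟨_, hdouble⟩
  · refine ⟨-Affine.Point.some x₀ y₀ hR, ?_⟩
    rw [neg_nsmul, hdouble, Affine.Point.neg_some, Affine.Point.some.injEq, e,
      Affine.negY_negY]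
    exact ⟨rfl, rfl⟩

end FA.FunctionFieldRank
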