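import Fermat.Agent.FunctionFieldRank.TwoClass
import Mathlib.FieldTheory.RatFunc.AsPolynomial
import Mathlib.AlgebraicGeometry.EllipticCurve.Affine.Point
import Mathlib.Algebra.CharP.Frobenius
import Mathlib.RingTheory.RootsOfUnity.PrimitiveRoots
import Mathlib.Algebra.Polynomial.RingDivision
import Mathlib.FieldTheory.Finite.GaloisField

/-!
# Explicit points on the Legendre curve over a rational function field

With `d = p ^ f + 1` and `t = u ^ d` the curve `y² = x (x + 1) (x + t)`, written in `X = x + 1`,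
has for each `z` with `z ^ d = 1` the point `(z u + 1, z u (z u + 1) ^ (d / 2))`. The parities of
the orders of `X` at the zeros of the `z u + 1` separate the `d` points.
-/

set_option autoImplicit false
set_option linter.unusedSectionVars false
set_option linter.style.haveILetI false

noncomputable section

open WeierstrassCurve Polynomial
open FA.CM.Seven (twoCurve twoCurve_equation twoCurve_negY)
open scoped Classical

namespace FA.FunctionFieldRank

variable {K : Type*} [Field K]

/-- `y² = (X - 1) X (X - 1 + t)`, that is `y² = x (x + 1) (x + t)` in `X = x + 1`. -/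
abbrev ulmerCurve (t : K) : WeierstrassCurve K := twoCurve (t - 2) (1 - t)

theorem ulmerCurve_equation {t x y : K} :
    (ulmerCurve t).toAffine.Equation x y ↔ y ^ 2 = (x - 1) * x * (x - 1 + t) := by
  rw [twoCurve_equation]
  constructor <;> intro h <;> linear_combination h

theorem ulmerCurve_Δ (t : K) : (ulmerCurve t).Δ = 2 ^ 4 * t ^ 2 * (1 - t) ^ 2 := by
  simp only [WeierstrassCurve.Δ, WeierstrassCurve.b₂, WeierstrassCurve.b₄, WeierstrassCurve.b₆,
    WeierstrassCurve.b₈]
  ring

theorem ulmerCurve_c₄ (t : K) : (ulmerCurve t).c₄ = 2 ^ 4 * (t ^ 2 - t + 1) := by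
  simp only [WeierstrassCurve.c₄, WeierstrassCurve.b₂, WeierstrassCurve.b₄]
  ring

theorem isElliptic_ulmerCurve {t : K} (h2 : (2 : K) ≠ 0) (h0 : t ≠ 0) (h1 : t ≠ 1) :
    (ulmerCurve t).IsElliptic := by
  rw [WeierstrassCurve.isElliptic_iff, isUnit_iff_ne_zero, ulmerCurve_Δ]
  exact mul_ne_zero (mul_ne_zero (pow_ne_zero _ h2) (pow_ne_zero _ h0))
    (pow_ne_zero _ (sub_ne_zero.2 h1.symm))

/-- The points killed by two lie over at most three abscissae. -/
theorem two_torsion_le {t : K} (h2 : (2 : K) ≠ 0) :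
    Finite {Q : (ulmerCurve t).toAffine.Point // 2 • Q = 0} ∧
      Nat.card {Q : (ulmerCurve t).toAffine.Point // 2 • Q = 0} ≤ 4 := by
  let g : {Q : (ulmerCurve t).toAffine.Point // 2 • Q = 0} → Option K := fun Q =>
    match Q.1 with
    | .zero => none
    | .some x _ _ => some x
  have hy : ∀ {x y : K} {h : (ulmerCurve t).toAffine.Nonsingular x y},
      2 • Affine.Point.some x y h = 0 → y = 0 := by
    intro x y h e
    rw [two_nsmul, add_eq_zero_iff_eq_neg, Affine.Point.neg_some, Affine.Point.some.injEq,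
      twoCurve_negY] at e
    exact (mul_eq_zero.1 (show (2 : K) * y = 0 by linear_combination e.2)).resolve_left h2
  have hg : Function.Injective g := by
    rintro ⟨_ | ⟨x, y, h⟩, hQ⟩ ⟨_ | ⟨x', y', h'⟩, hQ'⟩ e
    · rfl
    · simp [g] at e
    · simp [g] at e
    · obtain rfl : x = x' := by simpa [g] using e
      obtain rfl := hy hQ
      obtain rfl := hy hQ'
      rfl
  have hmem : ∀ Q, g Q ∈ ({none, some 0, some 1, some (1 - t)} : Finset (Option K)) := by
    rintro ⟨_ | ⟨x, y, h⟩, hQ⟩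
    · simp [g]
    obtain rfl := hy hQ
    have := ulmerCurve_equation.1 h.1
    rw [zero_pow two_ne_zero, eq_comm, mul_eq_zero, mul_eq_zero, sub_eq_zero] at this
    rcases this with (e | e) | e
    · simp [g, e]
    · simp [g, e]
    · simp [g, show x = 1 - t by linear_combination e]
  let g' : _ → ↥({none, some 0, some 1, some (1 - t)} : Finset (Option K)) :=
    fun Q => ⟨g Q, hmem Q⟩
  have hg' : Function.Injective g' := fun x y e => hg (congrArg Subtype.val e)
  refine ⟨Finite.of_injective g' hg', (Nat.card_le_card_of_injective g' hg').trans ?_⟩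
  rw [Nat.card_eq_fintype_card, Fintype.card_coe]
  exact Finset.card_le_four

variable {F : Type*} [Field F]

/-- The parity of the order of a rational function at `c`. -/
def parityAt (c : F) (x : RatFunc F) : ZMod 2 :=
  (x.num.rootMultiplicity c : ZMod 2) + (x.denom.rootMultiplicity c : ZMod 2)

theorem isParity_parityAt (c : F) : IsParity (parityAt c) := fun x y hx hy => by
  have h := congrArg (Polynomial.rootMultiplicity c) (RatFunc.num_denom_mul x y)
  have nx := RatFunc.num_ne_zero hx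
  have ny := RatFunc.num_ne_zero hy
  have nxy := RatFunc.num_ne_zero (mul_ne_zero hx hy)
  have dx := RatFunc.denom_ne_zero x
  have dy := RatFunc.denom_ne_zero y
  have dxy := RatFunc.denom_ne_zero (x * y)
  rw [rootMultiplicity_mul (mul_ne_zero nxy (mul_ne_zero dx dy)),
    rootMultiplicity_mul (mul_ne_zero dx dy),
    rootMultiplicity_mul (mul_ne_zero (mul_ne_zero nx ny) dxy),
    rootMultiplicity_mul (mul_ne_zero nx ny)] at h
  have h' := congrArg (Nat.cast : ℕ → ZMod 2) h
  push_cast at h'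
  have h20 : (2 : ZMod 2) = 0 := rfl
  simp only [parityAt]
  linear_combination h' + ((x * y).denom.rootMultiplicity c : ZMod 2) * h20 -
    ((x.denom.rootMultiplicity c : ZMod 2) + (y.denom.rootMultiplicity c : ZMod 2)) * h20

theorem parityAt_algebraMap (c : F) (q : F[X]) :
    parityAt c (algebraMap F[X] (RatFunc F) q) = (q.rootMultiplicity c : ZMod 2) := by
  rw [parityAt, RatFunc.num_algebraMap, RatFunc.denom_algebraMap]
  simp [rootMultiplicity_eq_zero]

theorem two_ne_zero_ratFunc {p : ℕ} [CharP F p] (hp : p.Prime) (hp2 : p ≠ 2) :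
    (2 : RatFunc F) ≠ 0 := by
  have h : ((2 : ℕ) : F) ≠ 0 := fun e => hp2 ((Nat.prime_dvd_prime_iff_eq hp Nat.prime_two).1
    ((CharP.cast_eq_zero_iff F p 2).1 e))
  intro e
  exact h ((algebraMap F (RatFunc F)).injective (by rw [map_natCast, map_zero]; exact_mod_cast e))

variable (p f : ℕ)

/-- `t = u ^ d`. -/
def tParam : RatFunc F := algebraMap F[X] (RatFunc F) (X ^ (p ^ f + 1))

theorem tParam_ne : (tParam p f : RatFunc F) ≠ 0 ∧ (tParam p f : RatFunc F) ≠ 1 := by
  refine ⟨RatFunc.algebraMap_ne_zero (pow_ne_zero _ X_ne_zero), fun e => ?_⟩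
  rw [tParam, ← map_one (algebraMap F[X] (RatFunc F))] at e
  exact absurd (congrArg (eval 0) (RatFunc.algebraMap_injective F e)) (by simp)

variable [Fact p.Prime] [CharP F p]

/-- The curve is elliptic. -/
theorem isElliptic_tParam (hp2 : p ≠ 2) : (ulmerCurve (tParam p f : RatFunc F)).IsElliptic :=
  isElliptic_ulmerCurve (two_ne_zero_ratFunc Fact.out hp2) (tParam_ne p f).1 (tParam_ne p f).2

/-- The modular invariant is no constant. -/
theorem j_tParam_ne (hp2 : p ≠ 2) [(ulmerCurve (tParam p f : RatFunc F)).IsElliptic] (c : F) :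
    (ulmerCurve (tParam p f : RatFunc F)).j ≠ RatFunc.C c := by
  intro e
  set t : RatFunc F := tParam p f with ht
  have h : (ulmerCurve t).c₄ ^ 3 = (ulmerCurve t).Δ * RatFunc.C c := by
    rw [← e, WeierstrassCurve.j, ← WeierstrassCurve.coe_Δ', ← mul_assoc, Units.mul_inv, one_mul]
  rw [ulmerCurve_Δ, ulmerCurve_c₄, ht, tParam, ← RatFunc.algebraMap_C] at h
  have h' : (2 ^ 4 * ((X ^ (p ^ f + 1)) ^ 2 - X ^ (p ^ f + 1) + 1)) ^ 3 =
      2 ^ 4 * (X ^ (p ^ f + 1)) ^ 2 * (1 - X ^ (p ^ f + 1)) ^ 2 * Polynomial.C c := by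
    apply RatFunc.algebraMap_injective F
    simpa [map_ofNat] using h
  have h0 := congrArg (eval 0) h'
  simp at h0
  have h2 : ((2 : ℕ) : F) ≠ 0 := fun e => hp2 ((Nat.prime_dvd_prime_iff_eq Fact.out
    Nat.prime_two).1 ((CharP.cast_eq_zero_iff F p 2).1 e))
  exact h2 (by exact_mod_cast h0)

variable {p f} {ζ : F}

/-- `v = z u` for the `i`-th root of unity `z`. -/
def vPoly (ζ : F) (i : ZMod (p ^ f + 1)) : F[X] := Polynomial.C (ζ ^ i.val) * X

/-- The root of `v + 1`. -/
def cRoot (ζ : F) (i : ZMod (p ^ f + 1)) : F := -(ζ ^ i.val)⁻¹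

theorem vPoly_identity (hp2 : p ≠ 2) (hζ : IsPrimitiveRoot ζ (p ^ f + 1))
    (i : ZMod (p ^ f + 1)) :
    (vPoly ζ i * (vPoly ζ i + 1) ^ ((p ^ f + 1) / 2)) ^ 2 =
      vPoly ζ i * (vPoly ζ i + 1) * (vPoly ζ i + X ^ (p ^ f + 1)) := by
  set v := vPoly ζ i
  have hd : (p ^ f + 1) / 2 * 2 = p ^ f + 1 := Nat.div_mul_cancel (even_iff_two_dvd.1
    (((Fact.out : p.Prime).odd_of_ne_two hp2).pow.add_one))
  have hv : v ^ (p ^ f + 1) = X ^ (p ^ f + 1) := by
    have h1 : (ζ ^ i.val) ^ (p ^ f + 1) = 1 := by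
      rw [← pow_mul, mul_comm, pow_mul, hζ.pow_eq_one, one_pow]
    simp only [v, vPoly, mul_pow, ← map_pow, h1, map_one, one_mul]
  rw [mul_pow, ← pow_mul, hd, ← hv, pow_succ (v + 1), add_pow_char_pow, one_pow]
  ring

theorem point_nonsingular (hp2 : p ≠ 2) (hζ : IsPrimitiveRoot ζ (p ^ f + 1))
    (i : ZMod (p ^ f + 1)) : (ulmerCurve (tParam p f : RatFunc F)).toAffine.Nonsingular
      (algebraMap F[X] (RatFunc F) (vPoly ζ i + 1))
      (algebraMap F[X] (RatFunc F) (vPoly ζ i * (vPoly ζ i + 1) ^ ((p ^ f + 1) / 2))) := by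
  haveI := isElliptic_tParam (F := F) p f hp2
  refine Affine.equation_iff_nonsingular.mp (ulmerCurve_equation.2 ?_)
  rw [← map_pow, vPoly_identity hp2 hζ, tParam, map_add (algebraMap F[X] (RatFunc F)) (vPoly ζ i) 1,
    map_one, add_sub_cancel_right]
  simp [map_mul, map_add]

/-- Ulmer's point of a root of unity. -/
def uPoint (hp2 : p ≠ 2) (hζ : IsPrimitiveRoot ζ (p ^ f + 1)) (i : ZMod (p ^ f + 1)) :
    (ulmerCurve (tParam p f : RatFunc F)).toAffine.Point :=
  .some _ _ (point_nonsingular hp2 hζ i)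

theorem one_sub_tParam_ne : (1 : RatFunc F) - tParam p f ≠ 0 :=
  sub_ne_zero.2 (tParam_ne p f).2.symm

theorem isParity_roots : IsParity fun (x : RatFunc F) (i : ZMod (p ^ f + 1)) =>
    parityAt (cRoot ζ i) x :=
  fun _ _ hx hy => funext fun _ => isParity_parityAt _ hx hy

/-- The classes at the `d` roots. -/
def rootClasses (ζ : F) : (ulmerCurve (tParam p f : RatFunc F)).toAffine.Point →+
    (ZMod (p ^ f + 1) → ZMod 2) :=
  classHom (isParity_roots (ζ := ζ)) (fun _ => funext fun _ => CharTwo.add_self_eq_zero _)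
    one_sub_tParam_ne

theorem rootClasses_uPoint (hp2 : p ≠ 2) (hζ : IsPrimitiveRoot ζ (p ^ f + 1))
    (i : ZMod (p ^ f + 1)) : rootClasses ζ (uPoint hp2 hζ i) = Pi.single i 1 := by
  set a := ζ ^ i.val with ha
  have ha0 : a ≠ 0 := pow_ne_zero _ (hζ.ne_zero (by omega))
  have hv : vPoly ζ i + 1 = Polynomial.C a * (X - Polynomial.C (cRoot ζ i)) := by
    rw [vPoly, cRoot, ← ha, mul_sub, ← Polynomial.C_mul, mul_neg, mul_inv_cancel₀ ha0, map_neg,
      map_one, sub_neg_eq_add]
  have hne : vPoly ζ i + 1 ≠ 0 :=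
    hv ▸ mul_ne_zero (Polynomial.C_ne_zero.2 ha0) (X_sub_C_ne_zero _)
  show classFun (fun (x : RatFunc F) (k : ZMod (p ^ f + 1)) => parityAt (cRoot ζ k) x)
    (tParam p f - 2) (1 - tParam p f) (uPoint hp2 hζ i) = _
  rw [uPoint, classFun_some (RatFunc.algebraMap_ne_zero hne)]
  funext j
  rw [parityAt_algebraMap, hv, rootMultiplicity_mul (hv ▸ hne), rootMultiplicity_C,
    rootMultiplicity_X_sub_C, zero_add, Pi.single_apply]
  have : cRoot ζ j = cRoot ζ i ↔ j = i := by
    refine ⟨fun e => ZMod.val_injective _ (hζ.pow_inj (ZMod.val_lt _) (ZMod.val_lt _) ?_),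
      fun e => e ▸ rfl⟩
    simpa [cRoot] using e
  simp only [this]
  split_ifs <;> simp

/-- The `d` points have all classes. -/
theorem closure_single_eq_top {ι : Type*} [Fintype ι] [DecidableEq ι] :
    AddSubgroup.closure (Set.range fun i : ι => Pi.single (M := fun _ => ZMod 2) i 1) = ⊤ := by
  rw [eq_top_iff]
  intro v _
  rw [show v = ∑ i, Pi.single i (v i) from (Finset.univ_sum_single v).symm]
  refine sum_mem fun i _ => ?_
  rcases (by decide : ∀ a : ZMod 2, a = 0 ∨ a = 1) (v i) with e | e <;> rw [e]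
  · simp
  · exact AddSubgroup.subset_closure ⟨i, rfl⟩

/-- **`d - 2` independent points.** -/
theorem exists_independent_points (hp2 : p ≠ 2) (hζ : IsPrimitiveRoot ζ (p ^ f + 1)) :
    ∃ Q : Fin (p ^ f - 1) → (ulmerCurve (tParam p f : RatFunc F)).toAffine.Point,
      LinearIndependent ℤ Q := by
  obtain ⟨hfin, h4⟩ := two_torsion_le (t := (tParam p f : RatFunc F))
    (two_ne_zero_ratFunc Fact.out hp2)
  have hpos := Nat.one_le_pow f p (Fact.out : p.Prime).pos
  refine exists_independent (uPoint hp2 hζ) (rootClasses ζ)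
    (fun v => (two_nsmul v).trans (funext fun _ => CharTwo.add_self_eq_zero _)) ?_ h4
    (m := p ^ f + 1) ?_ (by omega)
  · simp only [rootClasses_uPoint]
    exact closure_single_eq_top
  · rw [Nat.card_fun, Nat.card_zmod, Nat.card_zmod]

/-- A finite field with the roots of unity. -/
theorem exists_primitiveRoot_galoisField (hf : f ≠ 0) :
    ∃ ζ : GaloisField p (2 * f), IsPrimitiveRoot ζ (p ^ f + 1) := by
  haveI : Finite (GaloisField p (2 * f))ˣ := inferInstance
  obtain ⟨g, hg⟩ := IsCyclic.exists_generator (α := (GaloisField p (2 * f))ˣ)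
  have ho : orderOf g = (p ^ f + 1) * (p ^ f - 1) := by
    rw [orderOf_eq_card_of_forall_mem_zpowers hg, Nat.card_units, GaloisField.card p _ (by omega),
      ← Nat.sq_sub_sq, one_pow, ← pow_mul, mul_comm f 2]
  have hpos : 1 < p ^ f := Nat.one_lt_pow hf (Fact.out : p.Prime).one_lt
  have h := (IsPrimitiveRoot.orderOf g).pow (n := orderOf g) (a := p ^ f - 1) (b := p ^ f + 1)
    (orderOf_pos g) (by rw [ho, mul_comm])
  exact ⟨_, IsPrimitiveRoot.coe_units_iff.2 h⟩

end FA.FunctionFieldRank
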