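import Fermat.Agent.CM.Seven.Isogeny
import Mathlib.LinearAlgebra.LinearIndependent.Basic
import Mathlib.GroupTheory.FiniteAbelian.Basic
import Mathlib.Data.ZMod.Basic
import Mathlib.GroupTheory.Index

/-!
# Class maps on `y² = x³ + a x² + b x` over any field, and the rank they detect

A function `χ` on the field, additive on products of non-zero elements, with values in a group of
exponent two, gives a homomorphism on the points: `(x, y) ↦ χ x`, the point `(0, 0)` going to `χ b`.
A surjection of a finitely generated group onto a group of `2 ^ m` classes leaves room for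
`m - 2` independent elements when at most four elements are killed by two.
-/

set_option autoImplicit false
set_option linter.unusedSectionVars false
set_option linter.style.haveILetI false

noncomputable section

open WeierstrassCurve
open FA.CM.Seven (twoCurve twoCurve_equation twoCurve_negY exists_line)

namespace FA.FunctionFieldRank

/-- A parity: additive on products of non-zero elements. -/
def IsParity {K A : Type*} [Field K] [AddCommGroup A] (χ : K → A) : Prop :=
  ∀ ⦃x y : K⦄, x ≠ 0 → y ≠ 0 → χ (x * y) = χ x + χ y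

variable {K A : Type*} [Field K] [DecidableEq K] [AddCommGroup A] {a b : K}

/-- The class of a point, `(0, 0)` having that of `b`. -/
def classFun (χ : K → A) (a b : K) : (twoCurve a b).toAffine.Point → A
  | .zero => 0
  | .some x _ _ => if x = 0 then χ b else χ x

theorem classFun_some {χ : K → A} {x y : K} {h : (twoCurve a b).toAffine.Nonsingular x y}
    (hx : x ≠ 0) : classFun χ a b (.some x y h) = χ x := if_neg hx

theorem classFun_some_zero {χ : K → A} {y : K} {h : (twoCurve a b).toAffine.Nonsingular 0 y} :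
    classFun χ a b (.some 0 y h) = χ b := if_pos rfl

theorem classFun_neg (χ : K → A) (P : (twoCurve a b).toAffine.Point) :
    classFun χ a b (-P) = classFun χ a b P := by
  rcases P with _ | ⟨x, y, h⟩
  · rfl
  · rw [Affine.Point.neg_some]; rfl

/-- **The class map is additive.** -/
theorem classFun_add {χ : K → A} (hχ : IsParity χ) (h2 : ∀ u : A, u + u = 0) (hb : b ≠ 0)
    (P Q : (twoCurve a b).toAffine.Point) :
    classFun χ a b (P + Q) = classFun χ a b P + classFun χ a b Q := by
  rcases P with _ | ⟨x₁, y₁, h₁⟩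
  · rw [← Affine.Point.zero_def, zero_add]
    exact (zero_add _).symm
  rcases Q with _ | ⟨x₂, y₂, h₂⟩
  · rw [← Affine.Point.zero_def, add_zero]
    exact (add_zero _).symm
  by_cases hxy : x₁ = x₂ ∧ y₁ = (twoCurve a b).toAffine.negY x₂ y₂
  · rw [Affine.Point.add_of_Y_eq hxy.1 hxy.2]
    obtain ⟨rfl, -⟩ := hxy
    exact (h2 _).symm
  obtain ⟨M, C, x₃, h₃, -, -, -, e₂, e₃, hsum⟩ := exists_line h₁ h₂ hxy
  rw [hsum, classFun_neg]
  have hne : ∀ {u v : K}, u * v = b → u ≠ 0 ∧ v ≠ 0 := fun e => mul_ne_zero_iff.1 (e ▸ hb)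
  have key : ∀ {u v : K}, u * v = b → χ b = χ u + χ v := fun e => by
    rw [← e]; exact hχ (hne e).1 (hne e).2
  have hC : ∀ {u v w : K}, u * v * w = C ^ 2 → w = 0 → C = 0 := fun e hw =>
    (pow_eq_zero_iff two_ne_zero).1 (by rw [← e, hw, mul_zero])
  by_cases z₁ : x₁ = 0
  · subst z₁
    have hC0 : C = 0 := hC (u := x₂) (v := x₃) (w := 0) (by linear_combination e₃) rfl
    have e : x₂ * x₃ = b := by rw [hC0] at e₂; linear_combination e₂
    rw [classFun_some_zero, classFun_some (hne e).1, classFun_some (hne e).2, key e,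
      add_right_comm, h2, zero_add]
  by_cases z₂ : x₂ = 0
  · subst z₂
    have hC0 : C = 0 := hC (u := x₁) (v := x₃) (w := 0) (by linear_combination e₃) rfl
    have e : x₁ * x₃ = b := by rw [hC0] at e₂; linear_combination e₂
    rw [classFun_some_zero, classFun_some (hne e).1, classFun_some (hne e).2, key e, ← add_assoc,
      h2, zero_add]
  by_cases z₃ : x₃ = 0
  · subst z₃
    have hC0 : C = 0 := hC e₃ rfl
    have e : x₁ * x₂ = b := by rw [hC0] at e₂; linear_combination e₂
    rw [classFun_some_zero, classFun_some z₁, classFun_some z₂, key e]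
  rw [classFun_some z₁, classFun_some z₂, classFun_some z₃]
  have hC0 : C ≠ 0 := fun h => mul_ne_zero (mul_ne_zero z₁ z₂) z₃ (by rw [e₃, h]; ring)
  have h0 : χ x₁ + χ x₂ + χ x₃ = 0 := by
    rw [← hχ z₁ z₂, ← hχ (mul_ne_zero z₁ z₂) z₃, e₃, pow_two, hχ hC0 hC0, h2]
  rw [eq_neg_of_add_eq_zero_left h0]
  exact (neg_eq_of_add_eq_zero_left (h2 _)).symm

/-- The class map. -/
def classHom {χ : K → A} (hχ : IsParity χ) (h2 : ∀ u : A, u + u = 0) (hb : b ≠ 0) :
    (twoCurve a b).toAffine.Point →+ A :=
  AddMonoidHom.mk' (classFun χ a b) (classFun_add hχ h2 hb)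

/-- Independent elements of a group with few elements killed by two and many classes. -/
theorem exists_independent {G V : Type*} [AddCommGroup G] [AddCommGroup V] [Finite V]
    {ι : Type*} [Finite ι] (g : ι → G) (φ : G →+ V) (h2 : ∀ v : V, 2 • v = 0)
    (hsurj : AddSubgroup.closure (Set.range fun i => φ (g i)) = ⊤) [Finite {x : G // 2 • x = 0}]
    (h4 : Nat.card {x : G // 2 • x = 0} ≤ 4) {m : ℕ} (hm : 2 ^ m ≤ Nat.card V) {n : ℕ}
    (hn : n + 2 ≤ m) : ∃ Q : Fin n → G, LinearIndependent ℤ Q := by
  set H := AddSubgroup.closure (Set.range g)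
  haveI hfg : AddGroup.FG H :=
    (AddGroup.fg_iff_addSubgroup_fg H).2 (AddSubgroup.fg_iff _ |>.2 ⟨_, rfl, Set.finite_range g⟩)
  set ψ : H →+ V := φ.comp H.subtype
  have hψ : Function.Surjective ψ := by
    rw [← AddMonoidHom.range_eq_top, eq_top_iff, ← hsurj, AddSubgroup.closure_le]
    rintro _ ⟨i, rfl⟩
    exact ⟨⟨g i, AddSubgroup.subset_closure ⟨i, rfl⟩⟩, rfl⟩
  haveI : Module.Finite ℤ H := Module.Finite.iff_addGroup_fg.mpr hfg
  set T : Submodule ℤ H := Submodule.torsion ℤ H
  haveI : Module.Finite ℤ T :=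
    Module.Finite.iff_fg.2 (IsNoetherian.noetherian T)
  haveI hTfin : Finite T := by
    haveI : AddGroup.FG T := Module.Finite.iff_addGroup_fg.mp inferInstance
    refine AddCommGroup.finite_of_fg_isAddTorsion T ?_
    rintro ⟨x, hx⟩
    obtain ⟨⟨c, hc⟩, e⟩ := (Submodule.mem_torsion_iff x).1 hx
    rw [isOfFinAddOrder_iff_zsmul_eq_zero]
    exact ⟨c, nonZeroDivisors.ne_zero hc, Subtype.ext e⟩
  haveI : Module.Free ℤ (H ⧸ T) := Module.free_of_finite_type_torsion_free'
  set r := Module.finrank ℤ (H ⧸ T)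
  set bs := Module.finBasis ℤ (H ⧸ T)
  choose l hl using fun j => T.mkQ_surjective (bs j)
  -- the classes of the torsion
  let τ : T →+ V := ψ.comp T.subtype.toAddMonoidHom
  have hτ : (nsmulAddMonoidHom (α := T) 2).range ≤ τ.ker := by
    rintro _ ⟨x, rfl⟩
    rw [AddMonoidHom.mem_ker, nsmulAddMonoidHom_apply, map_nsmul, h2]
  have hk : Nat.card τ.range ≤ 4 := by
    rw [← AddSubgroup.index_ker]
    refine (Nat.le_of_dvd (Nat.pos_of_ne_zero AddSubgroup.index_ne_zero_of_finite)
      (AddSubgroup.index_dvd_of_le hτ)).trans ?_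
    rw [AddSubgroup.index_range]
    let emb : (nsmulAddMonoidHom (α := T) 2).ker → {x : G // 2 • x = 0} :=
      fun x => ⟨((x.1.1 : H) : G), by
        have h : (2 • x.1 : T) = 0 := AddMonoidHom.mem_ker.1 x.2
        exact congrArg (fun t : T => ((t.1 : H) : G)) h⟩
    exact (Nat.card_le_card_of_injective emb fun x y e => by
      have h := congrArg Subtype.val e
      simp only [emb] at h
      exact Subtype.ext (Subtype.ext (Subtype.ext h))).trans h4
  -- every class is a class of torsion plus a sum of basis classes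
  let F : τ.range × (Fin r → ZMod 2) → V := fun p => p.1.1 + ∑ j, (p.2 j).val • ψ (l j)
  have hF : Function.Surjective F := fun v => by
    obtain ⟨x, rfl⟩ := hψ v
    set c := bs.repr (T.mkQ x)
    have hx : x - ∑ j, c j • l j ∈ T := by
      rw [← Submodule.Quotient.mk_eq_zero, ← Submodule.mkQ_apply, map_sub, map_sum]
      simp_rw [map_zsmul, hl]
      rw [bs.sum_repr, sub_self]
    refine ⟨(⟨τ ⟨_, hx⟩, _, rfl⟩, fun j => (c j : ZMod 2)), ?_⟩
    have hj : ∀ j, ((c j : ZMod 2)).val • ψ (l j) = c j • ψ (l j) := fun j => by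
      obtain ⟨k, hk⟩ : (2 : ℤ) ∣ c j - ((c j : ZMod 2).val : ℤ) :=
        (ZMod.intCast_zmod_eq_zero_iff_dvd _ 2).1 (by push_cast; simp)
      rw [← natCast_zsmul, eq_comm, ← sub_eq_zero, ← sub_smul, hk, mul_zsmul]
      rw [show (2 : ℤ) • (k • ψ (l j)) = 2 • (k • ψ (l j)) from natCast_zsmul _ 2, h2]
    show ψ (x - ∑ j, c j • l j) + ∑ j, ((c j : ZMod 2)).val • ψ (l j) = ψ x
    simp_rw [hj]
    rw [map_sub, map_sum]
    simp_rw [map_zsmul, sub_add_cancel]
  have hr : m ≤ r + 2 := by
    have := hm.trans (Nat.card_le_card_of_surjective F hF)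
    rw [Nat.card_prod, Nat.card_fun, Nat.card_zmod, Nat.card_fin] at this
    refine (Nat.pow_le_pow_iff_right one_lt_two).1 (this.trans ?_)
    rw [pow_add, mul_comm]
    exact Nat.mul_le_mul le_rfl hk
  refine ⟨fun i => (l (Fin.castLE (by omega) i) : G), ?_⟩
  have h : LinearIndependent ℤ fun i : Fin n => l (Fin.castLE (by omega) i) := by
    refine LinearIndependent.of_comp T.mkQ ?_
    simp only [Function.comp_def, hl]
    exact bs.linearIndependent.comp _ (Fin.castLE_injective _)
  exact h.map' H.subtype.toIntLinearMap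
    (LinearMap.ker_eq_bot.2 Subtype.val_injective)

end FA.FunctionFieldRank
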